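import Fermat.Agent.S51.Dup

/-!
# S51: root counting on a Weierstrass curve
-/

set_option autoImplicit false

open Polynomial

namespace Fermat.Agent.S51

variable {F : Type*} [Field F] [DecidableEq F]

/-- coordinates of a point -/
def toOpt (V : WeierstrassCurve.Affine F) : V.Point → Option (F × F)
  | .zero => none
  | .some x y _ => some (x, y)

theorem toOpt_injective (V : WeierstrassCurve.Affine F) : Function.Injective (toOpt V) := by
  rintro (_ | ⟨x₁, y₁, h₁⟩) (_ | ⟨x₂, y₂, h₂⟩) h <;>
    simp only [toOpt, Option.some.injEq, Prod.mk.injEq, reduceCtorEq] at h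
  · rfl
  · obtain ⟨rfl, rfl⟩ := h; rfl

/-- the quadratic polynomial satisfied by the `y`-coordinates over a given `x` -/
noncomputable def yPoly (V : WeierstrassCurve.Affine F) (x : F) : F[X] :=
  X ^ 2 + C (V.a₁ * x + V.a₃) * X - C (x ^ 3 + V.a₂ * x ^ 2 + V.a₄ * x + V.a₆)

theorem yPoly_natDegree (V : WeierstrassCurve.Affine F) (x : F) : (yPoly V x).natDegree = 2 := by
  unfold yPoly; compute_degree!

theorem yPoly_ne_zero (V : WeierstrassCurve.Affine F) (x : F) : yPoly V x ≠ 0 := by
  intro h
  have := yPoly_natDegree V x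
  rw [h] at this
  simp at this

/-- the finite set containing all points whose `x`-coordinate is a root of `f` -/
noncomputable def rootSet (V : WeierstrassCurve.Affine F) (f : F[X]) : Finset (Option (F × F)) :=
  insert none ((f.roots.toFinset.biUnion
    (fun x => (yPoly V x).roots.toFinset.image (fun y => (x, y)))).image some)

theorem card_rootSet_le (V : WeierstrassCurve.Affine F) (f : F[X]) :
    (rootSet V f).card ≤ 2 * f.natDegree + 1 := by
  unfold rootSet
  refine (Finset.card_insert_le _ _).trans ?_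
  refine Nat.succ_le_succ ?_
  refine Finset.card_image_le.trans ?_
  refine Finset.card_biUnion_le.trans ?_
  calc ∑ x ∈ f.roots.toFinset, ((yPoly V x).roots.toFinset.image (fun y => (x, y))).card
      ≤ ∑ _x ∈ f.roots.toFinset, 2 := by
        refine Finset.sum_le_sum fun x _ => ?_
        refine Finset.card_image_le.trans ?_
        refine (Multiset.toFinset_card_le _).trans ?_
        exact (card_roots' _).trans (yPoly_natDegree V x).le
    _ = f.roots.toFinset.card * 2 := by simp
    _ ≤ f.natDegree * 2 :=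
        Nat.mul_le_mul_right _ ((Multiset.toFinset_card_le _).trans (card_roots' _))
    _ = 2 * f.natDegree := by ring

theorem finite_of_roots (V : WeierstrassCurve.Affine F) (S : Set V.Point) (f : F[X]) (hf : f ≠ 0)
    (hS : ∀ x y h, (WeierstrassCurve.Affine.Point.some x y h : V.Point) ∈ S → f.eval x = 0) :
    S.Finite ∧ S.ncard ≤ 2 * f.natDegree + 1 := by
  have hsub : toOpt V '' S ⊆ (rootSet V f : Set (Option (F × F))) := by
    rintro _ ⟨P, hP, rfl⟩
    rcases P with _ | ⟨x, y, h⟩
    · simp [toOpt, rootSet]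
    · have hx := hS x y h hP
      have hy : (yPoly V x).eval y = 0 := by
        have := (WeierstrassCurve.Affine.equation_iff x y).mp h.1
        simp only [yPoly, eval_sub, eval_add, eval_pow, eval_X, eval_mul, eval_C]
        linear_combination this
      simp only [toOpt, rootSet, Finset.coe_insert, Finset.coe_image, Set.mem_insert_iff,
        reduceCtorEq, false_or, Set.mem_image, Finset.mem_coe, Finset.mem_biUnion,
        Multiset.mem_toFinset, Finset.mem_image, Option.some.injEq]
      exact ⟨(x, y), ⟨x, (mem_roots hf).mpr hx, y, (mem_roots (yPoly_ne_zero V x)).mpr hy, rfl⟩, rfl⟩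
  have hfin : (toOpt V '' S).Finite := (rootSet V f).finite_toSet.subset hsub
  have hSfin : S.Finite := hfin.of_finite_image (toOpt_injective V).injOn
  refine ⟨hSfin, ?_⟩
  calc S.ncard = (toOpt V '' S).ncard := (Set.ncard_image_of_injective S (toOpt_injective V)).symm
    _ ≤ (rootSet V f : Set (Option (F × F))).ncard :=
        Set.ncard_le_ncard hsub (rootSet V f).finite_toSet
    _ = (rootSet V f).card := Set.ncard_coe_finset _
    _ ≤ 2 * f.natDegree + 1 := card_rootSet_le V f

/-- transfer of a bound from a set of points to the torsion submodule -/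
theorem card_torsionBy_of_set (V : WeierstrassCurve.Affine F) (n B : ℕ)
    (h : {P : V.Point | n • P = 0}.Finite ∧ {P : V.Point | n • P = 0}.ncard ≤ B) :
    Finite (Submodule.torsionBy ℤ V.Point (n : ℤ)) ∧
      Nat.card (Submodule.torsionBy ℤ V.Point (n : ℤ)) ≤ B := by
  have heq : ((Submodule.torsionBy ℤ V.Point (n : ℤ) : Submodule ℤ V.Point) : Set V.Point)
      = {P : V.Point | n • P = 0} := by
    ext P
    simp only [SetLike.mem_coe, Submodule.mem_torsionBy_iff, Set.mem_ofPred_eq, natCast_zsmul]
  have hfin : ((Submodule.torsionBy ℤ V.Point (n : ℤ) : Submodule ℤ V.Point) :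
      Set V.Point).Finite := heq ▸ h.1
  refine ⟨hfin, ?_⟩
  have : Nat.card (Submodule.torsionBy ℤ V.Point (n : ℤ)) =
      ((Submodule.torsionBy ℤ V.Point (n : ℤ) : Submodule ℤ V.Point) : Set V.Point).ncard := rfl
  rw [this, heq]
  exact h.2

/-- the 3-division polynomial as a polynomial -/
noncomputable def psi3Poly (V : WeierstrassCurve.Affine F) : F[X] :=
  C 3 * X ^ 4 + C V.b₂ * X ^ 3 + C (3 * V.b₄) * X ^ 2 + C (3 * V.b₆) * X + C V.b₈

theorem card_three_torsion [CharZero F] (V : WeierstrassCurve.Affine F) :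
    Finite (Submodule.torsionBy ℤ V.Point ((3 : ℕ) : ℤ)) ∧
      Nat.card (Submodule.torsionBy ℤ V.Point ((3 : ℕ) : ℤ)) < 3 ^ 3 := by
  have hdeg : (psi3Poly V).natDegree = 4 := by
    unfold psi3Poly
    compute_degree!
  have hne : psi3Poly V ≠ 0 := by
    intro h; rw [h] at hdeg; simp at hdeg
  have h := finite_of_roots V {P : V.Point | 3 • P = 0} (psi3Poly V) hne (by
    intro x y h hP
    have := (three_nsmul_eq_zero_iff h).mp hP
    simp only [psi3] at this
    simp only [psi3Poly, eval_add, eval_mul, eval_C, eval_pow, eval_X]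
    linear_combination this)
  rw [hdeg] at h
  obtain ⟨h1, h2⟩ := card_torsionBy_of_set V 3 _ h
  exact ⟨h1, lt_of_le_of_lt h2 (by norm_num)⟩

/-- numerator polynomial of the duplication map -/
noncomputable def nPoly (V : WeierstrassCurve.Affine F) : F[X] :=
  X ^ 4 - C V.b₄ * X ^ 2 - C (2 * V.b₆) * X - C V.b₈

/-- denominator polynomial of the duplication map -/
noncomputable def mPoly (V : WeierstrassCurve.Affine F) : F[X] :=
  C 4 * X ^ 3 + C V.b₂ * X ^ 2 + C (2 * V.b₄) * X + C V.b₆

/-- numerator of `D(D(x)) - x` -/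
noncomputable def f16 (V : WeierstrassCurve.Affine F) : F[X] :=
  (nPoly V ^ 4 - C V.b₄ * nPoly V ^ 2 * mPoly V ^ 2 - C (2 * V.b₆) * nPoly V * mPoly V ^ 3
      - C V.b₈ * mPoly V ^ 4)
    - X * (C 4 * nPoly V ^ 3 * mPoly V + C V.b₂ * nPoly V ^ 2 * mPoly V ^ 2
      + C (2 * V.b₄) * nPoly V * mPoly V ^ 3 + C V.b₆ * mPoly V ^ 4)

theorem f16_natDegree [CharZero F] (V : WeierstrassCurve.Affine F) : (f16 V).natDegree = 16 := by
  unfold f16 nPoly mPoly
  compute_degree!

theorem card_five_torsion [CharZero F] (V : WeierstrassCurve.Affine F) :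
    Finite (Submodule.torsionBy ℤ V.Point ((5 : ℕ) : ℤ)) ∧
      Nat.card (Submodule.torsionBy ℤ V.Point ((5 : ℕ) : ℤ)) < 5 ^ 3 := by
  have hdeg := f16_natDegree V
  have hne : f16 V ≠ 0 := by
    intro h; rw [h] at hdeg; simp at hdeg
  have h := finite_of_roots V {P : V.Point | 5 • P = 0} (f16 V) hne (by
    intro x y h hP
    obtain ⟨x₂, y₂, h₂, -, -, hM1, -, h12, h21⟩ := five_torsion h hP
    have hx₂ : x₂ = dupN V.b₄ V.b₆ V.b₈ x / dupM V.b₂ V.b₄ V.b₆ x := by
      rw [h12]; field_simp
    have hN : (nPoly V).eval x = dupN V.b₄ V.b₆ V.b₈ x := by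
      simp only [nPoly, dupN, eval_sub, eval_mul, eval_C, eval_pow, eval_X]
    have hM : (mPoly V).eval x = dupM V.b₂ V.b₄ V.b₆ x := by
      simp only [mPoly, dupM, eval_add, eval_mul, eval_C, eval_pow, eval_X]
    simp only [f16, eval_sub, eval_add, eval_mul, eval_C, eval_pow, eval_X, hN, hM]
    generalize dupN V.b₄ V.b₆ V.b₈ x = n at *
    generalize dupM V.b₂ V.b₄ V.b₆ x = m at *
    subst hx₂
    simp only [dupN, dupM] at h21
    field_simp at h21
    linear_combination h21)
  rw [hdeg] at h
  obtain ⟨h1, h2⟩ := card_torsionBy_of_set V 5 _ h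
  exact ⟨h1, lt_of_le_of_lt h2 (by norm_num)⟩

end Fermat.Agent.S51
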