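import Mathlib

set_option autoImplicit false

/-!
# Rational points on `y² = x (x - 1) (x - 81)` (the curve 15a2) and on `X₀(15)`

An abscissa-only two-descent.  No group law and no heights are used: the descent terminates by a
`2`-adic argument.
-/

namespace Fermat.Agent.S51.Descent

/-- `x` is the abscissa of a rational point with `y ≠ 0` on `y² = x (x - 1) (x - 81)`. -/
def InS (x : ℚ) : Prop := ∃ y : ℚ, y ≠ 0 ∧ y ^ 2 = x * (x - 1) * (x - 81)

/-- The duplication map on abscissas. -/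
def dup (x : ℚ) : ℚ := (x ^ 2 - 81) ^ 2 / (4 * (x * (x - 1) * (x - 81)))

lemma InS.prod_ne_zero {x : ℚ} (h : InS x) : x * (x - 1) * (x - 81) ≠ 0 := by
  obtain ⟨y, hy0, hy⟩ := h
  rw [← hy]
  exact pow_ne_zero 2 hy0

lemma InS.ne_zero {x : ℚ} (h : InS x) : x ≠ 0 := by
  have := h.prod_ne_zero
  intro h0
  apply this
  rw [h0]; ring

lemma InS.sub_one_ne_zero {x : ℚ} (h : InS x) : x - 1 ≠ 0 := by
  have := h.prod_ne_zero
  intro h0
  apply this
  rw [h0]; ring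

lemma InS.sub_ne_zero {x : ℚ} (h : InS x) : x - 81 ≠ 0 := by
  have := h.prod_ne_zero
  intro h0
  apply this
  rw [h0]; ring

lemma InS.pos {x : ℚ} (h : InS x) : 0 < x := by
  obtain ⟨y, hy0, hy⟩ := h
  have hy2 : 0 < y ^ 2 := by positivity
  by_contra hx
  rw [not_lt] at hx
  have h1 : x - 1 < 0 := by linarith
  have h2 : x - 81 < 0 := by linarith
  have h3 : 0 ≤ (x - 1) * (x - 81) := (mul_pos_of_neg_of_neg h1 h2).le
  have h4 : x * ((x - 1) * (x - 81)) ≤ 0 := mul_nonpos_of_nonpos_of_nonneg hx h3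
  nlinarith

/-- three squares give a point -/
lemma inS_of_squares {w r₁ r₂ r₃ : ℚ} (h₁ : w = r₁ ^ 2) (h₂ : w - 1 = r₂ ^ 2) (h₃ : w - 81 = r₃ ^ 2)
    (hr₁ : r₁ ≠ 0) (hr₂ : r₂ ≠ 0) (hr₃ : r₃ ≠ 0) : InS w := by
  refine ⟨r₁ * r₂ * r₃, by positivity, ?_⟩
  rw [h₂, h₃, h₁]; ring

/-- Halving a point all of whose `x - eᵢ` are squares. -/
lemma exists_half {w r₁ r₂ r₃ : ℚ} (h₁ : w = r₁ ^ 2) (h₂ : w - 1 = r₂ ^ 2) (h₃ : w - 81 = r₃ ^ 2) :
    ∃ x : ℚ, InS x ∧ dup x = w := by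
  have e12 : r₁ ^ 2 - r₂ ^ 2 = 1 := by rw [← h₁, ← h₂]; ring
  have e13 : r₁ ^ 2 - r₃ ^ 2 = 81 := by rw [← h₁, ← h₃]; ring
  have n12 : r₁ + r₂ ≠ 0 := by
    intro h
    have : r₁ ^ 2 - r₂ ^ 2 = 0 := by
      have : r₁ ^ 2 - r₂ ^ 2 = (r₁ + r₂) * (r₁ - r₂) := by ring
      rw [this, h]; ring
    rw [this] at e12; norm_num at e12
  have n13 : r₁ + r₃ ≠ 0 := by
    intro h
    have : r₁ ^ 2 - r₃ ^ 2 = 0 := by
      have : r₁ ^ 2 - r₃ ^ 2 = (r₁ + r₃) * (r₁ - r₃) := by ring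
      rw [this, h]; ring
    rw [this] at e13; norm_num at e13
  have n23 : r₂ + r₃ ≠ 0 := by
    intro h
    have : r₂ ^ 2 - r₃ ^ 2 = 0 := by
      have : r₂ ^ 2 - r₃ ^ 2 = (r₂ + r₃) * (r₂ - r₃) := by ring
      rw [this, h]; ring
    have h80 : r₂ ^ 2 - r₃ ^ 2 = 80 := by linarith
    rw [this] at h80; norm_num at h80
  set x : ℚ := (r₁ + r₂) * (r₁ + r₃) with hx
  have x1 : x - 1 = (r₂ + r₁) * (r₂ + r₃) := by rw [hx]; linear_combination e12
  have x81 : x - 81 = (r₃ + r₁) * (r₃ + r₂) := by rw [hx]; linear_combination e13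
  have hprod : x * (x - 1) * (x - 81) = ((r₁ + r₂) * (r₁ + r₃) * (r₂ + r₃)) ^ 2 := by
    rw [x1, x81, hx]; ring
  have hnum : x ^ 2 - 81 = 2 * r₁ * ((r₁ + r₂) * (r₁ + r₃) * (r₂ + r₃)) := by
    have : (81 : ℚ) = (r₁ ^ 2 - r₂ ^ 2) * (r₁ ^ 2 - r₃ ^ 2) := by rw [e12, e13]; ring
    rw [this, hx]; ring
  refine ⟨x, ⟨(r₁ + r₂) * (r₁ + r₃) * (r₂ + r₃), by positivity, hprod.symm⟩, ?_⟩
  unfold dup
  rw [hprod, hnum, h₁]
  have : (r₁ + r₂) * (r₁ + r₃) * (r₂ + r₃) ≠ 0 := by positivity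
  field_simp
  ring

lemma exists_three_squares {x : ℚ} (h : InS x) (hsq : IsSquare x)
    (hε : IsSquare (x - 1) ∨ IsSquare (-(x - 1)) ∨ IsSquare (5 * (x - 1)) ∨
      IsSquare (-5 * (x - 1))) :
    ∃ w r₁ r₂ r₃ : ℚ, w = r₁ ^ 2 ∧ w - 1 = r₂ ^ 2 ∧ w - 81 = r₃ ^ 2 ∧ r₁ ≠ 0 ∧ r₂ ≠ 0 ∧ r₃ ≠ 0 ∧
      dup x = dup w := by
  have hx0 := h.ne_zero
  have hx1 := h.sub_one_ne_zero
  have hx81 := h.sub_ne_zero
  obtain ⟨y, hy0, hy⟩ := h
  obtain ⟨a, ha⟩ := hsq
  have ha0 : a ≠ 0 := by rintro rfl; apply hx0; rw [ha]; ring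
  rcases hε with ⟨b, hb⟩ | ⟨b, hb⟩ | ⟨b, hb⟩ | ⟨b, hb⟩
  · have hb0 : b ≠ 0 := by rintro rfl; apply hx1; rw [hb]; ring
    refine ⟨x, a, b, y / (a * b), by rw [ha]; ring, by rw [hb]; ring, ?_, ha0, hb0, by positivity,
      rfl⟩
    rw [div_pow, hy, hb]
    nth_rewrite 2 [ha]
    field_simp
  · have hb0 : b ≠ 0 := by rintro rfl; apply hx1; linarith
    have hb' : x - 1 = - (b * b) := by linarith
    refine ⟨81 / x, 9 / a, y / (a * a * b), 9 * b / a, by rw [ha]; field_simp; ring, ?_, ?_,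
      by positivity, by positivity, by positivity, ?_⟩
    · rw [div_pow, hy, hb']
      have : x - 81 = a * a - 81 := by rw [ha]
      rw [this, ha]
      field_simp
      ring
    · have : x = 1 - b * b := by linarith
      have h2 : a * a = 1 - b * b := by rw [← ha, this]
      rw [ha]
      field_simp
      linear_combination (-81) * h2
    · unfold dup
      have h81 : 81 - x ≠ 0 := by intro h; apply hx81; linarith
      have h1 : 1 - x ≠ 0 := by intro h; apply hx1; linarith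
      field_simp
      ring
  · have hb0 : b ≠ 0 := by rintro rfl; apply hx1; linarith
    refine ⟨81 * (x - 1) / (x - 81), 9 * (x - 1) * a / y, 4 * a * b * a / y, 36 * b * a / y,
      ?_, ?_, ?_, by positivity, by positivity, by positivity, ?_⟩
    · rw [div_pow, hy]
      nth_rewrite 4 [ha]
      field_simp
      norm_num
    · rw [div_pow, hy]
      have : (4 * a * b * a) ^ 2 = 16 * (a * a) * (a * a) * (b * b) := by ring
      rw [this, ← hb, ← ha]
      field_simp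
      ring
    · rw [div_pow, hy]
      have : (36 * b * a) ^ 2 = 1296 * (a * a) * (b * b) := by ring
      rw [this, ← hb, ← ha]
      field_simp
      ring
    · unfold dup
      have e1 : 81 * (x - 1) / (x - 81) - 1 = 80 * x / (x - 81) := by field_simp; ring
      have e2 : 81 * (x - 1) / (x - 81) - 81 = 6480 / (x - 81) := by field_simp; ring
      rw [e1, e2]
      field_simp
      ring
  · have hb0 : b ≠ 0 := by rintro rfl; apply hx1; linarith
    refine ⟨(x - 81) / (x - 1), y / (a * (x - 1)), 4 * b / (x - 1), 4 * a * b / (x - 1),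
      ?_, ?_, ?_, by positivity, by positivity, by positivity, ?_⟩
    · rw [div_pow, hy]
      have : (a * (x - 1)) ^ 2 = (a * a) * (x - 1) ^ 2 := by ring
      rw [this, ← ha]
      field_simp
    · rw [div_pow]
      have : (4 * b) ^ 2 = 16 * (b * b) := by ring
      rw [this, ← hb]
      field_simp
      ring
    · rw [div_pow]
      have : (4 * a * b) ^ 2 = 16 * (a * a) * (b * b) := by ring
      rw [this, ← hb, ← ha]
      field_simp
      ring
    · unfold dup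
      have e1 : (x - 81) / (x - 1) - 1 = -80 / (x - 1) := by field_simp; ring
      have e2 : (x - 81) / (x - 1) - 81 = -80 * x / (x - 1) := by field_simp; ring
      rw [e1, e2]
      field_simp
      ring

local instance : Fact (Nat.Prime 2) := ⟨Nat.prime_two⟩

lemma val_odd_int {z : ℤ} (hz : ¬ (2 : ℤ) ∣ z) : padicValRat 2 (z : ℚ) = 0 := by
  rw [padicValRat.of_int]
  exact_mod_cast padicValInt.eq_zero_of_not_dvd (by exact_mod_cast hz)

lemma val_sub_odd {w : ℚ} {z : ℤ} (hz : ¬ (2 : ℤ) ∣ z) (hw : padicValRat 2 w < 0) :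
    w - z ≠ 0 ∧ padicValRat 2 (w - z) = padicValRat 2 w := by
  have hz0 : (z : ℚ) ≠ 0 := by
    intro h
    have : z = 0 := by exact_mod_cast h
    exact hz (this ▸ dvd_zero _)
  have hw0 : w ≠ 0 := by
    rintro rfl
    simp at hw
  have hne : w - z ≠ 0 := by
    intro h
    have : w = z := by linarith
    rw [this, val_odd_int hz] at hw
    exact lt_irrefl _ hw
  refine ⟨hne, ?_⟩
  have h1 : padicValRat 2 (-(z : ℚ)) = 0 := by rw [padicValRat.neg, val_odd_int hz]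
  rw [sub_eq_add_neg] at hne ⊢
  exact padicValRat.add_eq_of_lt hne hw0 (neg_ne_zero.mpr hz0) (by rw [h1]; exact hw)

lemma val_dup_of_neg {w : ℚ} (hw : padicValRat 2 w < 0) :
    padicValRat 2 (dup w) = padicValRat 2 w - 2 := by
  have hw0 : w ≠ 0 := by
    rintro rfl
    simp at hw
  obtain ⟨n1, v1⟩ := val_sub_odd (z := 1) (by norm_num) hw
  obtain ⟨n81, v81⟩ := val_sub_odd (z := 81) (by norm_num) hw
  have hw2 : padicValRat 2 (w ^ 2) < 0 := by
    rw [padicValRat.pow]; push_cast; linarith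
  obtain ⟨nn, vn⟩ := val_sub_odd (z := 81) (by norm_num) hw2
  push_cast at n1 v1 n81 v81 nn vn
  have v4 : padicValRat 2 (4 : ℚ) = 2 := by
    have : (4 : ℚ) = (2 : ℚ) ^ 2 := by norm_num
    rw [this, padicValRat.pow]
    have : padicValRat 2 (2 : ℚ) = 1 := by
      exact_mod_cast padicValRat.self (p := 2) (by norm_num)
    rw [this]; norm_num
  unfold dup
  rw [padicValRat.div (pow_ne_zero 2 nn) (by positivity), padicValRat.pow,
    padicValRat.mul (by norm_num) (by positivity), padicValRat.mul (by positivity) n81,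
    padicValRat.mul hw0 n1, v1, v81, vn, padicValRat.pow, v4]
  push_cast
  ring

lemma mod8_a : ∀ a b k : ZMod 8, a ^ 2 = b ^ 2 + (2 * k + 1) ^ 2 → 2 * b = 0 := by decide
lemma mod8_b : ∀ c b k : ZMod 8, c ^ 2 = b ^ 2 - 5 * (2 * k + 1) ^ 2 → 4 * c = 0 := by decide
lemma mod2_c : ∀ b k : ZMod 2,
    (2 * b ^ 2 - (2 * k + 1) ^ 2) * (8 * b ^ 2 + 5 * (2 * k + 1) ^ 2) ≠ 0 := by decide

/-- The integer core of the base case. -/
lemma base_int {A B C E : ℤ} (hE : ¬ (2 : ℤ) ∣ E) (h1 : A ^ 2 = B ^ 2 + E ^ 2)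
    (h2 : A ^ 2 = C ^ 2 + 81 * E ^ 2) :
    ∃ B' C' o : ℤ, B = 4 * B' ∧ C = 8 * C' ∧ A ^ 4 - 81 * E ^ 4 = 16 * o ∧ ¬ (2 : ℤ) ∣ o := by
  obtain ⟨k, hk⟩ : ∃ k, E = 2 * k + 1 := ⟨E / 2, by omega⟩
  have hB : (4 : ℤ) ∣ B := by
    have := congrArg (Int.cast : ℤ → ZMod 8) h1
    rw [hk] at this
    push_cast at this
    have h := mod8_a _ _ _ this
    have h' : ((2 * B : ℤ) : ZMod 8) = 0 := by push_cast; exact h
    have := (ZMod.intCast_zmod_eq_zero_iff_dvd (2 * B) 8).1 h'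
    push_cast at this
    omega
  obtain ⟨B', rfl⟩ := hB
  have hC4 : (4 : ℤ) ∣ C := by
    have h16 : (4 : ℤ) ^ 2 ∣ C ^ 2 := ⟨B' ^ 2 - 5 * E ^ 2, by linarith⟩
    exact (Int.pow_dvd_pow_iff (by norm_num)).1 h16
  obtain ⟨C₁, rfl⟩ := hC4
  have h3 : C₁ ^ 2 = B' ^ 2 - 5 * E ^ 2 := by linarith
  have hC2 : (2 : ℤ) ∣ C₁ := by
    have := congrArg (Int.cast : ℤ → ZMod 8) h3
    rw [hk] at this
    push_cast at this
    have h := mod8_b _ _ _ this
    have h' : ((4 * C₁ : ℤ) : ZMod 8) = 0 := by push_cast; exact h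
    have := (ZMod.intCast_zmod_eq_zero_iff_dvd (4 * C₁) 8).1 h'
    push_cast at this
    omega
  obtain ⟨C', rfl⟩ := hC2
  refine ⟨B', C', (2 * B' ^ 2 - E ^ 2) * (8 * B' ^ 2 + 5 * E ^ 2), rfl, by ring, ?_, ?_⟩
  · have : A ^ 4 = (A ^ 2) ^ 2 := by ring
    rw [this, h1]; ring
  · intro hdvd
    have h0 := (ZMod.intCast_zmod_eq_zero_iff_dvd _ 2).2 hdvd
    rw [hk] at h0
    push_cast at h0
    exact mod2_c _ _ h0

lemma exists_int_sq_of_rat {z : ℤ} {r : ℚ} (h : (z : ℚ) = r ^ 2) : ∃ B : ℤ, z = B ^ 2 := by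
  have : IsSquare ((z : ℤ) : ℚ) := ⟨r, by rw [h]; ring⟩
  obtain ⟨B, hB⟩ := Rat.isSquare_intCast_iff.1 this
  exact ⟨B, by rw [hB]; ring⟩

lemma val_dup_neg_of_squares {w r₁ r₂ r₃ : ℚ} (h₁ : w = r₁ ^ 2) (h₂ : w - 1 = r₂ ^ 2)
    (h₃ : w - 81 = r₃ ^ 2) (hr₁ : r₁ ≠ 0) (hr₂ : r₂ ≠ 0) (hr₃ : r₃ ≠ 0) :
    padicValRat 2 (dup w) < 0 := by
  by_cases hw : padicValRat 2 w < 0
  · rw [val_dup_of_neg hw]; linarith
  rw [not_lt] at hw
  set A : ℤ := r₁.num with hA
  set E : ℤ := (r₁.den : ℤ) with hEdef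
  have hE0 : (E : ℚ) ≠ 0 := by
    have : r₁.den ≠ 0 := r₁.den_nz
    rw [hEdef]; exact_mod_cast this
  have hr : r₁ = (A : ℚ) / E := by
    rw [hA, hEdef]; exact_mod_cast (Rat.num_div_den r₁).symm
  have hA0 : (A : ℚ) ≠ 0 := by
    intro h; apply hr₁; rw [hr, h]; simp
  have hE : ¬ (2 : ℤ) ∣ E := by
    intro h2E
    have h2E' : 2 ∣ r₁.den := by
      rw [hEdef] at h2E; exact_mod_cast h2E
    have h2A : ¬ (2 : ℤ) ∣ r₁.num := by
      intro h2A
      have h2A' : 2 ∣ r₁.num.natAbs := by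
        exact Int.natCast_dvd_natCast.1 (by simpa using h2A)
      have := Nat.dvd_gcd h2A' h2E'
      rw [r₁.reduced] at this
      norm_num at this
    have hv : padicValRat 2 r₁ < 0 := by
      rw [padicValRat_def]
      have e1 : padicValInt 2 r₁.num = 0 := padicValInt.eq_zero_of_not_dvd (by exact_mod_cast h2A)
      have e2 : 1 ≤ padicValNat 2 r₁.den := one_le_padicValNat_of_dvd r₁.den_nz h2E'
      rw [e1]
      have e3 : (1 : ℤ) ≤ (padicValNat 2 r₁.den : ℤ) := by exact_mod_cast e2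
      simp only [Nat.cast_zero, zero_sub]
      linarith
    rw [h₁, padicValRat.pow] at hw
    push_cast at hw
    linarith
  obtain ⟨B, hB⟩ : ∃ B : ℤ, A ^ 2 - E ^ 2 = B ^ 2 := by
    apply exists_int_sq_of_rat (r := r₂ * E)
    push_cast
    rw [mul_pow, ← h₂, h₁, hr]
    field_simp
  obtain ⟨C, hC⟩ : ∃ C : ℤ, A ^ 2 - 81 * E ^ 2 = C ^ 2 := by
    apply exists_int_sq_of_rat (r := r₃ * E)
    push_cast
    rw [mul_pow, ← h₃, h₁, hr]
    field_simp
  obtain ⟨B', C', o, rfl, rfl, ho, hodd⟩ := base_int (A := A) (B := B) (C := C) hE (by linarith)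
    (by linarith)
  have hBq : w - 1 = ((4 * B' : ℤ) : ℚ) ^ 2 / (E : ℚ) ^ 2 := by
    have : ((4 * B' : ℤ) : ℚ) ^ 2 = (A : ℚ) ^ 2 - (E : ℚ) ^ 2 := by exact_mod_cast hB.symm
    rw [this, h₁, hr]; field_simp
  have hCq : w - 81 = ((8 * C' : ℤ) : ℚ) ^ 2 / (E : ℚ) ^ 2 := by
    have : ((8 * C' : ℤ) : ℚ) ^ 2 = (A : ℚ) ^ 2 - 81 * (E : ℚ) ^ 2 := by exact_mod_cast hC.symm
    rw [this, h₁, hr]; field_simp
  have hB'0 : (B' : ℚ) ≠ 0 := by
    intro h
    apply hr₂
    have : r₂ ^ 2 = 0 := by rw [← h₂, hBq]; push_cast; rw [h]; simp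
    exact pow_eq_zero_iff (by norm_num) |>.1 this
  have hC'0 : (C' : ℚ) ≠ 0 := by
    intro h
    apply hr₃
    have : r₃ ^ 2 = 0 := by rw [← h₃, hCq]; push_cast; rw [h]; simp
    exact pow_eq_zero_iff (by norm_num) |>.1 this
  have hoq : (A : ℚ) ^ 4 - 81 * (E : ℚ) ^ 4 = 16 * (o : ℚ) := by exact_mod_cast ho
  have ho0 : (o : ℚ) ≠ 0 := by
    intro h
    have : o = 0 := by exact_mod_cast h
    exact hodd (this ▸ dvd_zero _)
  have key : dup w = (o : ℚ) ^ 2 / ((2 : ℚ) ^ 4 * ((A * B' * C' * E : ℤ) : ℚ) ^ 2) := by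
    unfold dup
    have hnum : w ^ 2 - 81 = 16 * (o : ℚ) / (E : ℚ) ^ 4 := by
      rw [← hoq, h₁, hr]; field_simp
    rw [hnum, hBq, hCq, h₁, hr]
    push_cast
    field_simp
    ring
  have hz0 : ((A * B' * C' * E : ℤ) : ℚ) ≠ 0 := by push_cast; positivity
  rw [key, padicValRat.div (by positivity) (by positivity), padicValRat.pow, val_odd_int hodd,
    padicValRat.mul (by positivity) (by positivity), padicValRat.pow, padicValRat.pow,
    padicValRat.of_int]
  have : padicValRat 2 (2 : ℚ) = 1 := by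
    exact_mod_cast padicValRat.self (p := 2) (by norm_num)
  rw [this]
  push_cast
  have : (0 : ℤ) ≤ (padicValInt 2 (A * B' * C' * E) : ℤ) := by positivity
  linarith

lemma sq_of_coprime_pos {a b : ℤ} (h : IsCoprime a b) (ha : 0 < a) (hab : IsSquare (a * b)) :
    IsSquare a ∧ IsSquare b := by
  obtain ⟨k, hk⟩ := hab
  constructor
  · obtain ⟨a0, h0 | h0⟩ := Int.sq_of_isCoprime h (c := k) (by rw [hk]; ring)
    · exact ⟨a0, by rw [h0]; ring⟩
    · exfalso; nlinarith [sq_nonneg a0]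
  · obtain ⟨b0, h0 | h0⟩ := Int.sq_of_isCoprime h.symm (c := k) (by rw [mul_comm, hk]; ring)
    · exact ⟨b0, by rw [h0]; ring⟩
    · have h1 : 0 ≤ a * b := by rw [hk]; exact mul_self_nonneg k
      have h2 : 0 ≤ b := by
        by_contra hb
        rw [not_le] at hb
        have := mul_neg_of_pos_of_neg ha hb
        linarith
      have h3 : b0 ^ 2 = 0 := by nlinarith [sq_nonneg b0]
      exact ⟨0, by rw [h0, h3]; ring⟩

lemma gcd_split {a b : ℤ} (ha : 0 < a) (hab : IsSquare (a * b)) :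
    ∃ s t : ℤ, a = (Int.gcd a b : ℤ) * s ^ 2 ∧ b = (Int.gcd a b : ℤ) * t ^ 2 ∧ IsCoprime s t := by
  set g := Int.gcd a b with hg
  have hgpos : 0 < g := Int.gcd_pos_of_ne_zero_left _ ha.ne'
  have hgz : (0 : ℤ) < (g : ℤ) := by exact_mod_cast hgpos
  obtain ⟨a', ha'⟩ : (g : ℤ) ∣ a := Int.gcd_dvd_left ..
  obtain ⟨b', hb'⟩ : (g : ℤ) ∣ b := Int.gcd_dvd_right ..
  have hco : IsCoprime a' b' := by
    have := Int.gcd_div_gcd_div_gcd (i := a) (j := b) hgpos
    rw [← hg] at this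
    rw [Int.isCoprime_iff_gcd_eq_one]
    have e1 : a / (g : ℤ) = a' := by rw [ha']; exact Int.mul_ediv_cancel_left _ hgz.ne'
    have e2 : b / (g : ℤ) = b' := by rw [hb']; exact Int.mul_ediv_cancel_left _ hgz.ne'
    rwa [e1, e2] at this
  have ha'pos : 0 < a' := by
    by_contra h
    rw [not_lt] at h
    have := mul_nonpos_of_nonneg_of_nonpos hgz.le h
    rw [← ha'] at this
    linarith
  obtain ⟨k, hk⟩ := hab
  have hdvd : (g : ℤ) ∣ k := by
    have : (g : ℤ) ^ 2 ∣ k ^ 2 := ⟨a' * b', by rw [pow_two k, ← hk, ha', hb']; ring⟩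
    exact (Int.pow_dvd_pow_iff (by norm_num)).1 this
  obtain ⟨k', rfl⟩ := hdvd
  have hsq : IsSquare (a' * b') := by
    refine ⟨k', ?_⟩
    have h2 : (g : ℤ) ^ 2 * (a' * b') = (g : ℤ) ^ 2 * (k' * k') := by
      have : a * b = (g : ℤ) ^ 2 * (a' * b') := by rw [ha', hb']; ring
      rw [← this, hk]; ring
    exact mul_left_cancel₀ (pow_ne_zero 2 hgz.ne') h2
  obtain ⟨⟨s, hs⟩, ⟨t, ht⟩⟩ := sq_of_coprime_pos hco ha'pos hsq
  refine ⟨s, t, by rw [ha', hs]; ring, by rw [hb', ht]; ring, ?_⟩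
  rw [hs, ht] at hco
  exact IsCoprime.of_mul_left_left (IsCoprime.of_mul_right_left hco)

lemma gcd_split_signed {a b : ℤ} (ha : a ≠ 0) (hab : IsSquare (a * b)) :
    ∃ ε s t : ℤ, (ε = 1 ∨ ε = -1) ∧ a = ε * ((Int.gcd a b : ℤ) * s ^ 2) ∧
      b = ε * ((Int.gcd a b : ℤ) * t ^ 2) ∧ IsCoprime s t := by
  rcases lt_or_gt_of_ne ha with h | h
  · obtain ⟨s, t, hs, ht, hco⟩ := gcd_split (a := -a) (b := -b) (by linarith)
      (by rwa [neg_mul_neg])
    rw [Int.gcd_neg, Int.neg_gcd] at hs ht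
    exact ⟨-1, s, t, Or.inr rfl, by linarith, by linarith, hco⟩
  · obtain ⟨s, t, hs, ht, hco⟩ := gcd_split h hab
    exact ⟨1, s, t, Or.inl rfl, by linarith, by linarith, hco⟩

lemma mod3_a : ∀ s e t : ZMod 3, (3 * s ^ 2 - e ^ 2) * (s ^ 2 - 27 * e ^ 2) = t ^ 2 →
    e = 0 ∨ (s = 0 ∧ t = 0) := by decide
lemma mod3_b : ∀ s e t : ZMod 3, (27 * s ^ 2 - e ^ 2) * (s ^ 2 - 3 * e ^ 2) = t ^ 2 →
    e = 0 ∨ (s = 0 ∧ t = 0) := by decide
lemma mod8_c : ∀ j k : ZMod 8, (2 * j + 1) ^ 2 - (2 * k + 1) ^ 2 = 0 := by decide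
lemma mod4_a : ∀ s t k : ZMod 4, s ^ 2 - t ^ 2 ≠ 2 * (2 * k + 1) := by decide

lemma not_coprime_of_dvd {a b p : ℤ} (h : IsCoprime a b) (hp : 1 < p) (ha : p ∣ a) (hb : p ∣ b) :
    False := by
  have := h.isUnit_of_dvd' ha hb
  rcases Int.isUnit_iff.1 this with h | h <;> omega

/-- first half of the two-descent, in integers -/
lemma descent_int_one {m e : ℤ} (hm : 0 < m) (hco : IsCoprime m (e * e))
    (hsq : IsSquare (m * ((m - e * e) * (m - 81 * (e * e))))) :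
    IsSquare m ∧ IsSquare ((m - e * e) * (m - 81 * (e * e))) := by
  obtain ⟨s, t, hs, ht, hst⟩ := gcd_split hm hsq
  set g := Int.gcd m ((m - e * e) * (m - 81 * (e * e))) with hg
  have hgm : (g : ℤ) ∣ m := Int.gcd_dvd_left ..
  have hgw : (g : ℤ) ∣ (m - e * e) * (m - 81 * (e * e)) := Int.gcd_dvd_right ..
  have hg81 : (g : ℤ) ∣ 81 := by
    have h1 : (g : ℤ) ∣ 81 * (e * e) ^ 2 := by
      have : 81 * (e * e) ^ 2 = (m - e * e) * (m - 81 * (e * e)) - m * (m - 82 * (e * e)) := by ring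
      rw [this]
      exact dvd_sub hgw (Dvd.dvd.mul_right hgm _)
    have h2 : IsCoprime (g : ℤ) ((e * e) ^ 2) :=
      IsCoprime.pow_right (IsCoprime.of_isCoprime_of_dvd_left hco hgm)
    exact h2.dvd_of_dvd_mul_right h1
  have hg81' : g ∣ 3 ^ 4 := by
    have : g ∣ 81 := by exact_mod_cast hg81
    simpa using this
  obtain ⟨k, hk4, hgk⟩ := (Nat.dvd_prime_pow Nat.prime_three).1 hg81'
  have h3e : ¬ ((3 : ℤ) ∣ m ∧ (3 : ℤ) ∣ e) := by
    rintro ⟨h1, h2⟩
    exact not_coprime_of_dvd hco (by norm_num) h1 (Dvd.dvd.mul_right h2 _)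
  have key : ∀ (F : (s' e' t' : ZMod 3) → Prop), (F s e t) →
      (∀ s' e' t' : ZMod 3, F s' e' t' → e' = 0 ∨ (s' = 0 ∧ t' = 0)) → (3 : ℤ) ∣ m → False := by
    intro F hF hall h3m
    rcases hall _ _ _ hF with h | ⟨h1, h2⟩
    · exact h3e ⟨h3m, (ZMod.intCast_zmod_eq_zero_iff_dvd e 3).1 h⟩
    · exact not_coprime_of_dvd hst (by norm_num) ((ZMod.intCast_zmod_eq_zero_iff_dvd s 3).1 h1)
        ((ZMod.intCast_zmod_eq_zero_iff_dvd t 3).1 h2)
  interval_cases k
  · rw [hgk] at hs ht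
    exact ⟨⟨s, by rw [hs]; push_cast; ring⟩, ⟨t, by rw [ht]; push_cast; ring⟩⟩
  · exfalso
    rw [hgk] at hs ht
    push_cast at hs ht
    have h1 : (3 * s ^ 2 - e ^ 2) * (s ^ 2 - 27 * e ^ 2) = t ^ 2 := by
      have : 3 * ((3 * s ^ 2 - e ^ 2) * (s ^ 2 - 27 * e ^ 2)) = 3 * t ^ 2 := by
        have h := ht
        rw [hs] at h
        linear_combination h
      linarith
    refine key (fun s' e' t' => (3 * s' ^ 2 - e' ^ 2) * (s' ^ 2 - 27 * e' ^ 2) = t' ^ 2) ?_ mod3_a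
      ⟨s ^ 2, hs⟩
    have := congrArg (Int.cast : ℤ → ZMod 3) h1
    push_cast at this
    exact this
  · rw [hgk] at hs ht
    exact ⟨⟨3 * s, by rw [hs]; push_cast; ring⟩, ⟨3 * t, by rw [ht]; push_cast; ring⟩⟩
  · exfalso
    rw [hgk] at hs ht
    push_cast at hs ht
    have h1 : (27 * s ^ 2 - e ^ 2) * (s ^ 2 - 3 * e ^ 2) = t ^ 2 := by
      have : 27 * ((27 * s ^ 2 - e ^ 2) * (s ^ 2 - 3 * e ^ 2)) = 27 * t ^ 2 := by
        have h := ht
        rw [hs] at h
        linear_combination h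
      linarith
    refine key (fun s' e' t' => (27 * s' ^ 2 - e' ^ 2) * (s' ^ 2 - 3 * e' ^ 2) = t' ^ 2) ?_ mod3_b
      ⟨9 * s ^ 2, by rw [hs]; ring⟩
    have := congrArg (Int.cast : ℤ → ZMod 3) h1
    push_cast at this
    exact this
  · rw [hgk] at hs ht
    exact ⟨⟨9 * s, by rw [hs]; push_cast; ring⟩, ⟨9 * t, by rw [ht]; push_cast; ring⟩⟩

/-- second half of the two-descent, in integers -/
lemma descent_int_two {a e : ℤ} (hco : IsCoprime (a * a) (e * e)) (hu : a * a - e * e ≠ 0)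
    (hsq : IsSquare ((a * a - e * e) * (a * a - 81 * (e * e)))) :
    ∃ ε c r : ℤ, (ε = 1 ∨ ε = -1) ∧ (c = 1 ∨ c = 5) ∧ a * a - e * e = ε * (c * r ^ 2) := by
  obtain ⟨ε, s, t, hε, hs, ht, hst⟩ := gcd_split_signed hu hsq
  set g := Int.gcd (a * a - e * e) (a * a - 81 * (e * e)) with hg
  have hgu : (g : ℤ) ∣ a * a - e * e := Int.gcd_dvd_left ..
  have hgu' : (g : ℤ) ∣ a * a - 81 * (e * e) := Int.gcd_dvd_right ..
  have hg80 : (g : ℤ) ∣ 80 := by
    have h1 : (g : ℤ) ∣ 80 * (e * e) := by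
      have : 80 * (e * e) = (a * a - e * e) - (a * a - 81 * (e * e)) := by ring
      rw [this]
      exact dvd_sub hgu hgu'
    have h3 : IsCoprime (a * a - e * e) (e * e) := by
      have := IsCoprime.add_mul_left_left hco (-1)
      have e1 : a * a + e * e * -1 = a * a - e * e := by ring
      rwa [e1] at this
    have h2 : IsCoprime (g : ℤ) (e * e) := IsCoprime.of_isCoprime_of_dvd_left h3 hgu
    exact h2.dvd_of_dvd_mul_right h1
  have hg80' : g ∈ Nat.divisors 80 := by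
    rw [Nat.mem_divisors]
    exact ⟨by exact_mod_cast hg80, by norm_num⟩
  have hdiv : Nat.divisors 80 = {1, 2, 4, 5, 8, 10, 16, 20, 40, 80} := by decide
  -- parity information when `g` is even
  have hpar : (2 : ℤ) ∣ (g : ℤ) → (∃ k, e = 2 * k + 1) ∧ (8 : ℤ) ∣ (g : ℤ) := by
    intro h2g
    have h2u : (2 : ℤ) ∣ a * a - e * e := dvd_trans h2g hgu
    have he : ¬ (2 : ℤ) ∣ e := by
      intro h2e
      have h2ee : (2 : ℤ) ∣ e * e := Dvd.dvd.mul_right h2e _
      have h2aa : (2 : ℤ) ∣ a * a := by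
        have := dvd_add h2u h2ee
        simpa using this
      exact not_coprime_of_dvd hco (by norm_num) h2aa h2ee
    have ha : ¬ (2 : ℤ) ∣ a := by
      intro h2a
      have h2aa : (2 : ℤ) ∣ a * a := Dvd.dvd.mul_right h2a _
      have h2ee : (2 : ℤ) ∣ e * e := by
        have := dvd_sub h2aa h2u
        simpa using this
      exact he ((Int.prime_two.dvd_mul).1 h2ee |>.elim id id)
    obtain ⟨k, hk⟩ : ∃ k, e = 2 * k + 1 := ⟨e / 2, by omega⟩
    obtain ⟨j, hj⟩ : ∃ j, a = 2 * j + 1 := ⟨a / 2, by omega⟩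
    refine ⟨⟨k, hk⟩, ?_⟩
    have h8u : (8 : ℤ) ∣ a * a - e * e := by
      apply (ZMod.intCast_zmod_eq_zero_iff_dvd _ 8).1
      rw [hk, hj]
      push_cast
      have := mod8_c (j : ZMod 8) (k : ZMod 8)
      rw [← this]; ring
    have h8u' : (8 : ℤ) ∣ a * a - 81 * (e * e) := by
      have : a * a - 81 * (e * e) = (a * a - e * e) - 8 * (10 * (e * e)) := by ring
      rw [this]
      exact dvd_sub h8u (Dvd.intro _ rfl)
    exact Int.dvd_coe_gcd h8u h8u'
  have hdiff : ε * ((g : ℤ) * (s ^ 2 - t ^ 2)) = 80 * (e * e) := by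
    have : 80 * (e * e) = (a * a - e * e) - (a * a - 81 * (e * e)) := by ring
    rw [this]
    nth_rewrite 1 [hs]
    nth_rewrite 1 [ht]
    ring
  have hmod4 : ∀ k : ℤ, e = 2 * k + 1 → ∀ c : ℤ, (c : ZMod 4) = 2 → s ^ 2 - t ^ 2 = c * (e * e) →
      False := by
    intro k hk c hc h
    have := congrArg (Int.cast : ℤ → ZMod 4) h
    rw [hk] at this
    push_cast at this
    rw [hc] at this
    apply mod4_a (s : ZMod 4) (t : ZMod 4) ((2 * k * k + 2 * k : ℤ) : ZMod 4)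
    rw [this]
    push_cast
    ring
  rw [hdiv] at hg80'
  simp only [Finset.mem_insert, Finset.mem_singleton] at hg80'
  rcases hg80' with h | h | h | h | h | h | h | h | h | h <;> rw [h] at hs hpar hdiff <;>
    push_cast at hs hpar hdiff
  · exact ⟨ε, 1, s, hε, Or.inl rfl, by rw [hs]⟩
  · exfalso
    have := (hpar (by norm_num)).2
    norm_num at this
  · exact ⟨ε, 1, 2 * s, hε, Or.inl rfl, by rw [hs]; ring⟩
  · exact ⟨ε, 5, s, hε, Or.inr rfl, by rw [hs]⟩
  · exfalso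
    obtain ⟨⟨k, hk⟩, -⟩ := hpar (by norm_num)
    rcases hε with rfl | rfl
    · exact hmod4 k hk 10 (by decide) (by linarith)
    · exact hmod4 k hk (-10) (by decide) (by linarith)
  · exfalso
    have := (hpar (by norm_num)).2
    norm_num at this
  · exact ⟨ε, 1, 4 * s, hε, Or.inl rfl, by rw [hs]; ring⟩
  · exact ⟨ε, 5, 2 * s, hε, Or.inr rfl, by rw [hs]; ring⟩
  · exfalso
    obtain ⟨⟨k, hk⟩, -⟩ := hpar (by norm_num)
    rcases hε with rfl | rfl
    · exact hmod4 k hk 2 (by decide) (by linarith)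
    · exact hmod4 k hk (-2) (by decide) (by linarith)
  · exact ⟨ε, 5, 4 * s, hε, Or.inr rfl, by rw [hs]; ring⟩

lemma two_descent {x : ℚ} (h : InS x) :
    IsSquare x ∧ (IsSquare (x - 1) ∨ IsSquare (-(x - 1)) ∨ IsSquare (5 * (x - 1)) ∨
      IsSquare (-5 * (x - 1))) := by
  have hxpos := h.pos
  have hx1 := h.sub_one_ne_zero
  obtain ⟨y, hy0, hy⟩ := h
  set m : ℤ := x.num with hm
  set n : ℤ := (x.den : ℤ) with hn
  have hnpos : 0 < n := by rw [hn]; exact_mod_cast x.den_pos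
  have hmpos : 0 < m := Rat.num_pos.2 hxpos
  have hnq : (n : ℚ) ≠ 0 := by exact_mod_cast hnpos.ne'
  have hx : x = (m : ℚ) / n := by
    rw [hm, hn]; exact_mod_cast (Rat.num_div_den x).symm
  have hco : IsCoprime m n := by
    rw [Int.isCoprime_iff_gcd_eq_one, hm, hn]
    have := x.reduced
    simpa [Int.gcd, Nat.Coprime] using this
  have hsq1 : IsSquare (n * (m * ((m - n) * (m - 81 * n)))) := by
    rw [← Rat.isSquare_intCast_iff]
    refine ⟨y * n ^ 2, ?_⟩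
    have : y * (n : ℚ) ^ 2 * (y * (n : ℚ) ^ 2) = y ^ 2 * (n : ℚ) ^ 4 := by ring
    rw [this, hy, hx]
    push_cast
    field_simp
  have hco1 : IsCoprime n (m * ((m - n) * (m - 81 * n))) := by
    have c1 : IsCoprime n m := hco.symm
    have c2 : IsCoprime n (m - n) := by
      have := IsCoprime.add_mul_left_right c1 (-1)
      have e1 : m + n * -1 = m - n := by ring
      rwa [e1] at this
    have c3 : IsCoprime n (m - 81 * n) := by
      have := IsCoprime.add_mul_left_right c1 (-81)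
      have e1 : m + n * -81 = m - 81 * n := by ring
      rwa [e1] at this
    exact c1.mul_right (c2.mul_right c3)
  obtain ⟨⟨e, he⟩, hsq2⟩ := sq_of_coprime_pos hco1 hnpos hsq1
  rw [he] at hco hsq2
  obtain ⟨⟨a, ha⟩, hsq3⟩ := descent_int_one hmpos hco hsq2
  rw [ha] at hco hsq3
  have heq : (e : ℚ) ≠ 0 := by
    intro h0
    apply hnq
    rw [he]; push_cast; rw [h0]; ring
  have hx' : x = ((a : ℚ) / e) ^ 2 := by
    rw [hx, ha, he]; push_cast; field_simp
  have hu : a * a - e * e ≠ 0 := by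
    intro h0
    apply hx1
    have : (a : ℚ) * a - e * e = 0 := by exact_mod_cast h0
    rw [hx']
    field_simp
    linarith
  obtain ⟨ε, c, r, hε, hc, hr⟩ := descent_int_two hco hu hsq3
  have hrq : (a : ℚ) * a - e * e = ε * (c * r ^ 2) := by exact_mod_cast hr
  have hx1' : x - 1 = (ε : ℚ) * (c * ((r : ℚ) / e) ^ 2) := by
    rw [hx']
    field_simp
    linarith
  refine ⟨⟨(a : ℚ) / e, by rw [hx']; ring⟩, ?_⟩
  rcases hε with rfl | rfl <;> rcases hc with rfl | rfl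
  · left
    exact ⟨(r : ℚ) / e, by rw [hx1']; push_cast; ring⟩
  · right; right; left
    exact ⟨5 * ((r : ℚ) / e), by rw [hx1']; push_cast; ring⟩
  · right; left
    exact ⟨(r : ℚ) / e, by rw [hx1']; push_cast; ring⟩
  · right; right; right
    exact ⟨5 * ((r : ℚ) / e), by rw [hx1']; push_cast; ring⟩

lemma val_dup_le (k : ℕ) : ∀ x : ℚ, InS x → padicValRat 2 (dup x) ≤ -((k : ℤ) + 1) := by
  induction k with
  | zero =>
    intro x hx
    obtain ⟨hsq, hε⟩ := two_descent hx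
    obtain ⟨w, r₁, r₂, r₃, h₁, h₂, h₃, hr₁, hr₂, hr₃, hd⟩ := exists_three_squares hx hsq hε
    rw [hd]
    have := val_dup_neg_of_squares h₁ h₂ h₃ hr₁ hr₂ hr₃
    push_cast
    omega
  | succ k ih =>
    intro x hx
    obtain ⟨hsq, hε⟩ := two_descent hx
    obtain ⟨w, r₁, r₂, r₃, h₁, h₂, h₃, hr₁, hr₂, hr₃, hd⟩ := exists_three_squares hx hsq hε
    obtain ⟨x'', hx'', hdx''⟩ := exists_half h₁ h₂ h₃
    have h1 := ih x'' hx''
    rw [hdx''] at h1
    have hneg : padicValRat 2 w < 0 := by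
      have : (0 : ℤ) ≤ (k : ℤ) := by positivity
      omega
    rw [hd, val_dup_of_neg hneg]
    push_cast
    omega

theorem not_inS (x : ℚ) : ¬ InS x := by
  intro hx
  have h := val_dup_le (padicValRat 2 (dup x)).natAbs x hx
  have : -(padicValRat 2 (dup x)) ≤ ((padicValRat 2 (dup x)).natAbs : ℤ) := by
    rw [Int.natCast_natAbs]
    exact neg_le_abs _
  omega

/-- The curve `15a2`: the only rational points are the `2`-torsion points. -/
theorem rat_points_15a2 (x y : ℚ) (h : y ^ 2 = x * (x - 1) * (x - 81)) : y = 0 := by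
  by_contra hy
  exact not_inS x ⟨y, hy, h⟩

/-- The curve `15a1 = X₀(15)` in the form `w² = l (4 l + 1) (9 l - 4)`. -/
theorem rat_points_15a1 (l w : ℚ) (h : w ^ 2 = l * (4 * l + 1) * (9 * l - 4)) :
    l = 0 ∨ l = -1 / 4 ∨ l = 4 / 9 ∨ l = 1 ∨ l = -1 / 9 := by
  by_cases h9 : 9 * l - 4 = 0
  · right; right; left; linarith
  obtain ⟨D, hD⟩ : ∃ D : ℚ, D = 9 * l - 4 := ⟨_, rfl⟩
  rw [← hD] at h9 h
  replace h9 : D ≠ 0 := h9
  have key := rat_points_15a2 (81 * l * (4 * l + 1) / D)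
    (324 * w * (9 * l + 1) * (l - 1) / D ^ 2) (by
      have e1 : 81 * l * (4 * l + 1) / D - 1 = 4 * (9 * l + 1) ^ 2 / D := by
        field_simp; rw [hD]; ring
      have e2 : 81 * l * (4 * l + 1) / D - 81 = 324 * (l - 1) ^ 2 / D := by
        field_simp; rw [hD]; ring
      rw [e1, e2, div_pow]
      have e3 : (324 * w * (9 * l + 1) * (l - 1)) ^ 2
          = 104976 * w ^ 2 * (9 * l + 1) ^ 2 * (l - 1) ^ 2 := by ring
      rw [e3, h]
      field_simp
      ring)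
  rw [div_eq_zero_iff] at key
  rcases key with key | key
  · have h324 : (324 : ℚ) ≠ 0 := by norm_num
    simp only [mul_eq_zero, h324, false_or] at key
    rcases key with (hw | h1) | h1
    · rw [hw] at h
      have : l * (4 * l + 1) * D = 0 := by rw [← h]; ring
      simp only [mul_eq_zero, h9, or_false] at this
      rcases this with h0 | h0
      · left; exact h0
      · right; left; linarith
    · right; right; right; right; linarith
    · right; right; right; left; linarith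
  · exact absurd (pow_eq_zero_iff (by norm_num) |>.1 key) h9

/-- The same curve in the normalisation `w² = - t (4 t - 1) (25 t - 4)`. -/
theorem rat_points_15a1' (t w : ℚ) (h : w ^ 2 = -t * (4 * t - 1) * (25 * t - 4)) :
    t = 0 ∨ t = 1 / 4 ∨ t = 4 / 25 ∨ t = 1 / 5 ∨ t = -1 / 5 := by
  by_cases h4 : 1 - 4 * t = 0
  · right; left; linarith
  obtain ⟨D, hD⟩ : ∃ D : ℚ, D = 1 - 4 * t := ⟨_, rfl⟩
  rw [← hD] at h4
  replace h4 : D ≠ 0 := h4
  have key := rat_points_15a1 (t / D) (w / D ^ 2) (by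
      have e1 : 4 * (t / D) + 1 = 1 / D := by field_simp; rw [hD]; ring
      have e2 : 9 * (t / D) - 4 = (25 * t - 4) / D := by field_simp; rw [hD]; ring
      have e3 : 4 * t - 1 = - D := by rw [hD]; ring
      rw [e1, e2, div_pow, h, e3]
      field_simp)
  rcases key with k | k | k | k | k
  · left
    rw [div_eq_zero_iff] at k
    exact k.resolve_right h4
  · exfalso
    rw [div_eq_iff h4, hD] at k
    linarith
  · right; right; left
    rw [div_eq_iff h4, hD] at k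
    linarith
  · right; right; right; left
    rw [div_eq_iff h4, hD] at k
    linarith
  · right; right; right; right
    rw [div_eq_iff h4, hD] at k
    linarith

end Fermat.Agent.S51.Descent

namespace Fermat.Agent.S51

/-- Interface statement used by the final assembly of `S51`. -/
theorem rat_points_t (t w : ℚ) (h : w ^ 2 = -t * (4 * t - 1) * (25 * t - 4)) :
    t = 0 ∨ t = 1 / 4 ∨ t = 4 / 25 ∨ t = 1 / 5 ∨ t = -1 / 5 :=
  Descent.rat_points_15a1' t w h

end Fermat.Agent.S51
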