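import Fermat.Agent.S51.Dup

/-!
# S51: existence of points of order 3 and 5 over an algebraically closed field of characteristic 0
-/

set_option autoImplicit false

namespace Fermat.Agent.S51

open WeierstrassCurve WeierstrassCurve.Affine WeierstrassCurve.Affine.Point Polynomial

/-- the reduced 4-division polynomial -/
def pre4 {R : Type*} [CommRing R] (b2 b4 b6 b8 x : R) : R :=
  2 * x ^ 6 + b2 * x ^ 5 + 5 * b4 * x ^ 4 + 10 * b6 * x ^ 3 + 10 * b8 * x ^ 2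
    + (b2 * b8 - b4 * b6) * x + (b4 * b8 - b6 ^ 2)

/-- the 5-division polynomial -/
def psi5 {R : Type*} [CommRing R] (b2 b4 b6 b8 x : R) : R :=
  pre4 b2 b4 b6 b8 x * dupM b2 b4 b6 x ^ 2 - psi3 b2 b4 b6 b8 x ^ 3

section Identities

variable {F : Type*} [Field F]

/-- `N - x M = - psi3`. -/
theorem dupN_sub_mul_dupM (b2 b4 b6 b8 x : F) :
    dupN b4 b6 b8 x - x * dupM b2 b4 b6 x = - psi3 b2 b4 b6 b8 x := by
  unfold dupN dupM psi3; ring

/-- homogenisation of `dupN` -/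
theorem dupN_div (b4 b6 b8 n m : F) (hm : m ≠ 0) :
    dupN b4 b6 b8 (n / m) * m ^ 4 = n ^ 4 - b4 * n ^ 2 * m ^ 2 - 2 * b6 * n * m ^ 3 - b8 * m ^ 4 := by
  unfold dupN; field_simp

/-- homogenisation of `dupM` -/
theorem dupM_div (b2 b4 b6 n m : F) (hm : m ≠ 0) :
    dupM b2 b4 b6 (n / m) * m ^ 4
      = 4 * n ^ 3 * m + b2 * n ^ 2 * m ^ 2 + 2 * b4 * n * m ^ 3 + b6 * m ^ 4 := by
  unfold dupM; field_simp

variable [CharZero F]

theorem ident_I2 (b2 b4 b6 b8 x : F) (hb : 4 * b8 = b2 * b6 - b4 ^ 2) :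
    4 * dupN b4 b6 b8 x ^ 3 * dupM b2 b4 b6 x + b2 * dupN b4 b6 b8 x ^ 2 * dupM b2 b4 b6 x ^ 2
      + 2 * b4 * dupN b4 b6 b8 x * dupM b2 b4 b6 x ^ 3 + b6 * dupM b2 b4 b6 x ^ 4
      = dupM b2 b4 b6 x * pre4 b2 b4 b6 b8 x ^ 2 := by
  have hb8 : b8 = (b2 * b6 - b4 ^ 2) / 4 := by
    field_simp; linear_combination hb
  subst hb8
  unfold dupN dupM pre4
  ring

theorem ident_I1 (b2 b4 b6 b8 x : F) (hb : 4 * b8 = b2 * b6 - b4 ^ 2) :
    (dupN b4 b6 b8 x ^ 4 - b4 * dupN b4 b6 b8 x ^ 2 * dupM b2 b4 b6 x ^ 2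
      - 2 * b6 * dupN b4 b6 b8 x * dupM b2 b4 b6 x ^ 3 - b8 * dupM b2 b4 b6 x ^ 4)
      - x * (4 * dupN b4 b6 b8 x ^ 3 * dupM b2 b4 b6 x
        + b2 * dupN b4 b6 b8 x ^ 2 * dupM b2 b4 b6 x ^ 2
        + 2 * b4 * dupN b4 b6 b8 x * dupM b2 b4 b6 x ^ 3 + b6 * dupM b2 b4 b6 x ^ 4)
      = - psi3 b2 b4 b6 b8 x * psi5 b2 b4 b6 b8 x := by
  have hb8 : b8 = (b2 * b6 - b4 ^ 2) / 4 := by
    field_simp; linear_combination hb
  subst hb8
  unfold psi5 dupN dupM pre4 psi3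
  ring

end Identities

section Roots

variable {F : Type*} [Field F] [IsAlgClosed F] [CharZero F]

theorem exists_root_psi3 (b2 b4 b6 b8 : F) : ∃ x : F, psi3 b2 b4 b6 b8 x = 0 := by
  set p : F[X] := C 3 * X ^ 4 + C b2 * X ^ 3 + C (3 * b4) * X ^ 2 + C (3 * b6) * X + C b8 with hp
  have hdeg : p.degree = 4 := by
    rw [hp]; compute_degree!
  obtain ⟨x, hx⟩ := IsAlgClosed.exists_root p (by rw [hdeg]; decide)
  refine ⟨x, ?_⟩
  have := hx
  simp only [IsRoot.def, hp, eval_add, eval_mul, eval_C, eval_pow, eval_X] at this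
  unfold psi3
  linear_combination this

omit [IsAlgClosed F] in
theorem degree_psi5_ne_zero (b2 b4 b6 b8 : F) :
    ((2 * X ^ 6 + C b2 * X ^ 5 + C (5 * b4) * X ^ 4 + C (10 * b6) * X ^ 3 + C (10 * b8) * X ^ 2
      + C (b2 * b8 - b4 * b6) * X + C (b4 * b8 - b6 ^ 2))
      * (4 * X ^ 3 + C b2 * X ^ 2 + C (2 * b4) * X + C b6) ^ 2
      - (3 * X ^ 4 + C b2 * X ^ 3 + C (3 * b4) * X ^ 2 + C (3 * b6) * X + C b8) ^ 3 :
        F[X]).degree ≠ 0 := by
  set A' : F[X] := C b2 * X ^ 5 + C (5 * b4) * X ^ 4 + C (10 * b6) * X ^ 3 + C (10 * b8) * X ^ 2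
      + C (b2 * b8 - b4 * b6) * X + C (b4 * b8 - b6 ^ 2) with hA'
  set B' : F[X] := C b2 * X ^ 2 + C (2 * b4) * X + C b6 with hB'
  set D' : F[X] := C b2 * X ^ 3 + C (3 * b4) * X ^ 2 + C (3 * b6) * X + C b8 with hD'
  have hA : A'.natDegree ≤ 5 := by rw [hA']; compute_degree
  have hB : B'.natDegree ≤ 2 := by rw [hB']; compute_degree
  have hD : D'.natDegree ≤ 3 := by rw [hD']; compute_degree
  set R : F[X] := A' * (4 * X ^ 3 + B') ^ 2 + 2 * X ^ 6 * (8 * X ^ 3 * B' + B' ^ 2)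
      - (27 * X ^ 8 * D' + 9 * X ^ 4 * D' ^ 2 + D' ^ 3) with hR
  have hRdeg : R.natDegree ≤ 11 := by
    rw [hR]
    compute_degree
    all_goals omega
  have hp : ((2 * X ^ 6 + C b2 * X ^ 5 + C (5 * b4) * X ^ 4 + C (10 * b6) * X ^ 3
      + C (10 * b8) * X ^ 2 + C (b2 * b8 - b4 * b6) * X + C (b4 * b8 - b6 ^ 2))
      * (4 * X ^ 3 + C b2 * X ^ 2 + C (2 * b4) * X + C b6) ^ 2
      - (3 * X ^ 4 + C b2 * X ^ 3 + C (3 * b4) * X ^ 2 + C (3 * b6) * X + C b8) ^ 3 : F[X])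
      = C 5 * X ^ 12 + R := by
    rw [hR, hA', hB', hD']
    simp only [map_ofNat]
    ring
  rw [hp, degree_add_eq_left_of_degree_lt]
  · rw [degree_C_mul_X_pow _ (by norm_num)]; decide
  · rw [degree_C_mul_X_pow _ (by norm_num)]
    exact lt_of_le_of_lt (degree_le_of_natDegree_le hRdeg) (by decide)

theorem exists_root_psi5 (b2 b4 b6 b8 : F) : ∃ x : F, psi5 b2 b4 b6 b8 x = 0 := by
  obtain ⟨x, hx⟩ := IsAlgClosed.exists_root _ (degree_psi5_ne_zero b2 b4 b6 b8)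
  refine ⟨x, ?_⟩
  have := hx
  simp only [IsRoot.def, eval_add, eval_sub, eval_mul, eval_C, eval_pow, eval_X, eval_ofNat]
    at this
  unfold psi5 pre4 dupM psi3
  linear_combination this

end Roots

section Points

variable {F : Type*} [Field F] [IsAlgClosed F] [CharZero F]
  (V : WeierstrassCurve.Affine F)

/-- every `x` is the abscissa of a point -/
theorem exists_nonsingular (hΔ : V.Δ ≠ 0) (x : F) : ∃ y : F, V.Nonsingular x y := by
  obtain ⟨z, hz⟩ := IsAlgClosed.exists_pow_nat_eq (dupM V.b₂ V.b₄ V.b₆ x) (n := 2) (by norm_num)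
  refine ⟨(z - V.a₁ * x - V.a₃) / 2, ?_⟩
  rw [← V.equation_iff_nonsingular_of_Δ_ne_zero hΔ, Affine.equation_iff]
  unfold dupM at hz
  simp only [WeierstrassCurve.b₂, WeierstrassCurve.b₄, WeierstrassCurve.b₆] at hz
  field_simp
  linear_combination hz

variable [DecidableEq F]

theorem exists_three_torsion (hΔ : V.Δ ≠ 0) : ∃ P : V.Point, P ≠ 0 ∧ (3 : ℕ) • P = 0 := by
  obtain ⟨x, hx⟩ := exists_root_psi3 V.b₂ V.b₄ V.b₆ V.b₈
  obtain ⟨y, hy⟩ := exists_nonsingular V hΔ x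
  exact ⟨Point.some x y hy, Point.some_ne_zero _, (three_nsmul_eq_zero_iff hy).2 hx⟩

theorem exists_five_torsion (hΔ : V.Δ ≠ 0) : ∃ P : V.Point, P ≠ 0 ∧ (5 : ℕ) • P = 0 := by
  obtain ⟨x, hx⟩ := exists_root_psi5 V.b₂ V.b₄ V.b₆ V.b₈
  obtain ⟨y, hy⟩ := exists_nonsingular V hΔ x
  have hb := V.b_relation
  set M := dupM V.b₂ V.b₄ V.b₆ x with hMdef
  set N := dupN V.b₄ V.b₆ V.b₈ x with hNdef
  have hNM : N - x * M = - psi3 V.b₂ V.b₄ V.b₆ V.b₈ x := dupN_sub_mul_dupM _ _ _ _ _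
  have hM : M ≠ 0 := by
    intro hM0
    have h3 : psi3 V.b₂ V.b₄ V.b₆ V.b₈ x = 0 := by
      have : psi3 V.b₂ V.b₄ V.b₆ V.b₈ x ^ 3 = 0 := by
        have h5 := hx
        unfold psi5 at h5
        rw [← hMdef, hM0] at h5
        linear_combination -h5
      exact pow_eq_zero_iff (by norm_num) |>.1 this
    apply dupN_ne_zero hy hM0
    rw [← hNdef]
    linear_combination hNM + x * hM0 - h3
  have hI1 := ident_I1 V.b₂ V.b₄ V.b₆ V.b₈ x hb
  have hI2 := ident_I2 V.b₂ V.b₄ V.b₆ V.b₈ x hb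
  rw [← hMdef, ← hNdef] at hI1 hI2
  have hdN := dupN_div V.b₄ V.b₆ V.b₈ N M hM
  have hdM := dupM_div V.b₂ V.b₄ V.b₆ N M hM
  have hM4 : M ^ 4 ≠ 0 := pow_ne_zero _ hM
  refine ⟨Point.some x y hy, Point.some_ne_zero _, ?_⟩
  refine five_nsmul_eq_zero (x₂ := N / M) hy hM ?_ ?_ ?_
  · rw [← hNdef, ← hMdef]; field_simp
  · intro hxx
    -- then psi3 x = 0, so pre4 x = 0, so dupM (N/M) = 0, contradiction
    have hN : N = x * M := by
      rw [hxx]; field_simp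
    have h3 : psi3 V.b₂ V.b₄ V.b₆ V.b₈ x = 0 := by linear_combination hNM - hN
    have h4 : pre4 V.b₂ V.b₄ V.b₆ V.b₈ x = 0 := by
      have h5 := hx
      unfold psi5 at h5
      rw [← hMdef, h3] at h5
      have : pre4 V.b₂ V.b₄ V.b₆ V.b₈ x * M ^ 2 = 0 := by linear_combination h5
      exact (mul_eq_zero.1 this).resolve_right (pow_ne_zero _ hM)
    have : dupM V.b₂ V.b₄ V.b₆ (N / M) * M ^ 4 = 0 := by
      rw [hdM, hI2, h4]; ring
    rw [← hxx, ← hMdef] at this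
    exact hM4 (by
      have h5 : M ^ 5 = 0 := by linear_combination this
      rw [pow_eq_zero_iff (by norm_num) |>.1 h5]; ring)
  · apply mul_right_cancel₀ hM4
    rw [hx] at hI1
    linear_combination hdN - x * hdM + hI1

end Points

end Fermat.Agent.S51
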