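import Fermat.Statements.S51
import Fermat.Agent.S51.Card
import Fermat.Agent.S51.Exist

/-!
# S51: the Galois part

A reducible mod-3 representation gives a rational root of the 3-division polynomial; a reducible
mod-5 representation gives a rational kernel polynomial `X^2 - u X + v`.
-/

set_option autoImplicit false
open WeierstrassCurve WeierstrassCurve.Affine WeierstrassCurve.Affine.Point

namespace Fermat.Agent.S51

theorem exists_generator_of_card_lt {p : ℕ} [Fact p.Prime] {V : Type*} [AddCommGroup V]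
    [Module (ZMod p) V] [Finite V] (hcard : Nat.card V < p ^ 3) (N : Submodule (ZMod p) V)
    (hbot : N ≠ ⊥) (htop : N ≠ ⊤) : ∃ P ∈ N, P ≠ 0 ∧ ∀ Q ∈ N, ∃ k : ℕ, Q = k • P := by
  have hp : p.Prime := Fact.out
  have : Module.Finite (ZMod p) V := Module.Finite.of_finite
  have h1 : Nat.card V = p ^ Module.finrank (ZMod p) V := by
    have := Module.natCard_eq_pow_finrank (K := ZMod p) (V := V)
    rwa [Nat.card_zmod] at this
  have h2 : Module.finrank (ZMod p) V < 3 := by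
    rw [h1] at hcard
    exact (Nat.pow_lt_pow_iff_right hp.one_lt).1 hcard
  have h3 : Module.finrank (ZMod p) N < Module.finrank (ZMod p) V :=
    Submodule.finrank_lt htop
  have h4 : 0 < Module.finrank (ZMod p) N := by
    rw [Module.finrank_pos_iff_exists_ne_zero]
    obtain ⟨x, hx, hx0⟩ := (Submodule.ne_bot_iff N).1 hbot
    exact ⟨⟨x, hx⟩, fun h => hx0 (congrArg Subtype.val h)⟩
  have h5 : Module.finrank (ZMod p) N = 1 := by omega
  obtain ⟨⟨P, hPN⟩, hP0, hP⟩ := finrank_eq_one_iff'.1 h5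
  refine ⟨P, hPN, fun h => hP0 (Subtype.ext h), fun Q hQ => ?_⟩
  obtain ⟨c, hc⟩ := hP ⟨Q, hQ⟩
  refine ⟨c.val, ?_⟩
  have hc' : c • P = Q := congrArg Subtype.val hc
  rw [← hc', ← Nat.cast_smul_eq_nsmul (ZMod p), ZMod.natCast_zmod_val]

theorem isAlgClosure_rat : IsAlgClosure ℚ (AlgebraicClosure ℚ) := by
  have h : (DivisionRing.toRatAlgebra : Algebra ℚ (AlgebraicClosure ℚ)) =
      AlgebraicClosure.instAlgebra ℚ := Subsingleton.elim _ _
  rw [h]
  infer_instance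

theorem exists_rat_of_fixed (x : AlgebraicClosure ℚ)
    (h : ∀ σ : AlgebraicClosure ℚ ≃ₐ[ℚ] AlgebraicClosure ℚ, σ x = x) :
    ∃ q : ℚ, algebraMap ℚ (AlgebraicClosure ℚ) q = x := by
  have := isAlgClosure_rat
  have := (InfiniteGalois.mem_bot_iff_fixed (k := ℚ) (K := AlgebraicClosure ℚ) x).2 h
  exact IntermediateField.mem_bot.1 this

/-- The curve over `AlgebraicClosure ℚ` attached to an integral Weierstrass equation. -/
noncomputable abbrev barCurve (W : WeierstrassCurve ℤ) :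
    WeierstrassCurve.Affine (AlgebraicClosure ℚ) :=
  (W.map (Int.castRingHom ℚ))⁄(AlgebraicClosure ℚ)

theorem barCurve_b₂ (W : WeierstrassCurve ℤ) :
    (barCurve W).b₂ = algebraMap ℚ (AlgebraicClosure ℚ) (W.b₂ : ℚ) := by
  simp [barCurve, WeierstrassCurve.baseChange]

theorem barCurve_b₄ (W : WeierstrassCurve ℤ) :
    (barCurve W).b₄ = algebraMap ℚ (AlgebraicClosure ℚ) (W.b₄ : ℚ) := by
  simp [barCurve, WeierstrassCurve.baseChange]

theorem barCurve_b₆ (W : WeierstrassCurve ℤ) :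
    (barCurve W).b₆ = algebraMap ℚ (AlgebraicClosure ℚ) (W.b₆ : ℚ) := by
  simp [barCurve, WeierstrassCurve.baseChange]

theorem barCurve_b₈ (W : WeierstrassCurve ℤ) :
    (barCurve W).b₈ = algebraMap ℚ (AlgebraicClosure ℚ) (W.b₈ : ℚ) := by
  simp [barCurve, WeierstrassCurve.baseChange]

theorem barCurve_Δ_ne_zero (W : WeierstrassCurve ℤ) (hΔ : W.Δ ≠ 0) : (barCurve W).Δ ≠ 0 := by
  simp [barCurve, WeierstrassCurve.baseChange, hΔ]

/-- A reducible mod-`p` representation on a torsion group of order `< p ^ 3` that is nontrivial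
has a Galois-stable cyclic subgroup. -/
theorem exists_stable_generator (W : WeierstrassCurve ℤ) (p : ℕ) [Fact p.Prime]
    (hfin : Finite (Submodule.torsionBy ℤ (barCurve W).Point ((p : ℕ) : ℤ)))
    (hcard : Nat.card (Submodule.torsionBy ℤ (barCurve W).Point ((p : ℕ) : ℤ)) < p ^ 3)
    (hex : ∃ P : (barCurve W).Point, P ≠ 0 ∧ p • P = 0)
    (h : ¬ W.ModRepIsIrreducible p) :
    ∃ P : (barCurve W).Point, P ≠ 0 ∧ p • P = 0 ∧
      ∀ σ : AlgebraicClosure ℚ ≃ₐ[ℚ] AlgebraicClosure ℚ, ∃ k : ℕ, σ • P = k • P := by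
  have hnt : Nontrivial (Submodule.torsionBy ℤ (barCurve W).Point ((p : ℕ) : ℤ)) := by
    obtain ⟨P, hP0, hP⟩ := hex
    refine ⟨⟨⟨P, ?_⟩, 0, fun h => hP0 (congrArg Subtype.val h)⟩⟩
    rw [Submodule.mem_torsionBy_iff, natCast_zsmul, hP]
  have h' : ¬ ∀ N : Submodule (ZMod p) (Submodule.torsionBy ℤ (barCurve W).Point ((p : ℕ) : ℤ)),
      IsGaloisStable ℚ N → N = ⊥ ∨ N = ⊤ := fun hall => h ⟨hnt, hall⟩
  push Not at h'
  obtain ⟨N, hN, hbot, htop⟩ := h'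
  obtain ⟨P, hPN, hP0, hgen⟩ := exists_generator_of_card_lt hcard N hbot htop
  refine ⟨P.1, fun h => hP0 (Subtype.ext h), ?_, fun σ => ?_⟩
  · have := P.2
    rwa [Submodule.mem_torsionBy_iff, natCast_zsmul] at this
  · obtain ⟨k, hk⟩ := hgen (σ • P) (hN σ P hPN)
    exact ⟨k, congrArg Subtype.val hk⟩

theorem smul_some (W : WeierstrassCurve ℤ) (σ : AlgebraicClosure ℚ ≃ₐ[ℚ] AlgebraicClosure ℚ)
    {x y : AlgebraicClosure ℚ} (h : (barCurve W).Nonsingular x y) :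
    ∃ h', σ • (Point.some x y h : (barCurve W).Point) = Point.some (σ x) (σ y) h' :=
  ⟨_, rfl⟩

/-- Reduce a multiple modulo the order. -/
theorem nsmul_mod {A : Type*} [AddCommGroup A] {n : ℕ} {P : A} (hP : n • P = 0) (k : ℕ) :
    k • P = (k % n) • P := by
  conv_lhs => rw [← Nat.div_add_mod k n]
  rw [add_nsmul, mul_nsmul, hP, nsmul_zero, zero_add]

/-- Module T3 -/
theorem exists_rat_root_psi3 (W : WeierstrassCurve ℤ) (hΔ : W.Δ ≠ 0)
    (h : ¬ W.ModRepIsIrreducible 3) :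
    ∃ r : ℚ, psi3 (W.b₂ : ℚ) (W.b₄ : ℚ) (W.b₆ : ℚ) (W.b₈ : ℚ) r = 0 := by
  have := isAlgClosure_rat
  have hac : IsAlgClosed (AlgebraicClosure ℚ) := inferInstance
  obtain ⟨hfin, hcard⟩ := card_three_torsion (barCurve W)
  obtain ⟨P, hP0, hP3, hσ⟩ := exists_stable_generator W 3 hfin hcard
    (exists_three_torsion (barCurve W) (barCurve_Δ_ne_zero W hΔ)) h
  rcases P with _ | ⟨x, y, hxy⟩
  · exact absurd rfl hP0
  have hpsi := (three_nsmul_eq_zero_iff hxy).1 hP3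
  have hfix : ∀ σ : AlgebraicClosure ℚ ≃ₐ[ℚ] AlgebraicClosure ℚ, σ x = x := by
    intro σ
    obtain ⟨k, hk⟩ := hσ σ
    obtain ⟨h', hs⟩ := smul_some W σ hxy
    rw [hs, nsmul_mod hP3 k] at hk
    have hk3 : k % 3 < 3 := Nat.mod_lt _ (by norm_num)
    interval_cases hk' : k % 3
    · rw [zero_nsmul] at hk
      exact absurd hk (Point.some_ne_zero _)
    · rw [one_nsmul] at hk
      exact Point.X_eq_iff.2 (Or.inl hk)
    · have h2 : (2 : ℕ) • (Point.some x y hxy : (barCurve W).Point) = -Point.some x y hxy := by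
        rw [eq_neg_iff_add_eq_zero, ← succ_nsmul]
        exact hP3
      rw [h2] at hk
      exact Point.X_eq_iff.2 (Or.inr hk)
  obtain ⟨r, rfl⟩ := exists_rat_of_fixed x hfix
  refine ⟨r, ?_⟩
  rw [barCurve_b₂, barCurve_b₄, barCurve_b₆, barCurve_b₈] at hpsi
  apply (algebraMap ℚ (AlgebraicClosure ℚ)).injective
  rw [_root_.map_zero, ← hpsi]
  simp only [psi3, map_add, map_mul, map_pow, map_ofNat]

/-- The five possible multiples of a point of order five, together with their doubles. -/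
theorem five_cases {A : Type*} [AddCommGroup A] {P Q R S : A} (h5 : (5 : ℕ) • P = 0)
    (hQ : (2 : ℕ) • P = Q) {k : ℕ} (hR : R = k • P) (hS : S = (2 : ℕ) • R) :
    R = 0 ∨ (R = P ∧ S = Q) ∨ (R = Q ∧ S = -P) ∨ (R = -Q ∧ S = P) ∨ (R = -P ∧ S = -Q) := by
  have h4P : (4 : ℕ) • P = -P := by
    rw [eq_neg_iff_add_eq_zero, ← succ_nsmul]
    exact h5
  have h3P : (3 : ℕ) • P = -Q := by
    rw [← hQ, eq_neg_iff_add_eq_zero, ← add_nsmul]
    exact h5
  have h2Q : (2 : ℕ) • Q = -P := by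
    rw [← hQ, ← mul_nsmul]
    exact h4P
  rw [nsmul_mod h5 k] at hR
  have hk5 : k % 5 < 5 := Nat.mod_lt _ (by norm_num)
  interval_cases hk' : k % 5
  · left; rw [hR, zero_nsmul]
  · right; left
    rw [one_nsmul] at hR
    exact ⟨hR, by rw [hS, hR, hQ]⟩
  · right; right; left
    rw [hQ] at hR
    exact ⟨hR, by rw [hS, hR, h2Q]⟩
  · right; right; right; left
    rw [h3P] at hR
    exact ⟨hR, by rw [hS, hR, smul_neg, h2Q, neg_neg]⟩
  · right; right; right; right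
    rw [h4P] at hR
    exact ⟨hR, by rw [hS, hR, smul_neg, hQ]⟩

/-- Module T5 -/
theorem exists_rat_ker5 (W : WeierstrassCurve ℤ) (hΔ : W.Δ ≠ 0)
    (h : ¬ W.ModRepIsIrreducible 5) :
    ∃ u v : ℚ, u ^ 2 - 4 * v ≠ 0 ∧ ker5a (W.b₂ : ℚ) (W.b₄ : ℚ) (W.b₆ : ℚ) u v = 0 ∧
      ker5b (W.b₂ : ℚ) (W.b₄ : ℚ) (W.b₆ : ℚ) (W.b₈ : ℚ) u v = 0 := by
  have := isAlgClosure_rat
  have hac : IsAlgClosed (AlgebraicClosure ℚ) := inferInstance
  have : Fact (Nat.Prime 5) := ⟨by norm_num⟩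
  obtain ⟨hfin, hcard⟩ := card_five_torsion (barCurve W)
  obtain ⟨P, hP0, hP5, hσ⟩ := exists_stable_generator W 5 hfin hcard
    (exists_five_torsion (barCurve W) (barCurve_Δ_ne_zero W hΔ)) h
  rcases P with _ | ⟨x₁, y₁, h₁⟩
  · exact absurd rfl hP0
  obtain ⟨x₂, y₂, h₂, hQ, hne, -, -, h12, h21⟩ := five_torsion h₁ hP5
  have key : ∀ σ : AlgebraicClosure ℚ ≃ₐ[ℚ] AlgebraicClosure ℚ,
      (σ x₁ = x₁ ∧ σ x₂ = x₂) ∨ (σ x₁ = x₂ ∧ σ x₂ = x₁) := by
    intro σ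
    obtain ⟨k, hk⟩ := hσ σ
    have hσQ : σ • (Point.some x₂ y₂ h₂ : (barCurve W).Point) =
        (2 : ℕ) • (σ • (Point.some x₁ y₁ h₁ : (barCurve W).Point)) := by
      rw [← hQ]
      exact map_nsmul (Point.map (W' := W.map (Int.castRingHom ℚ)) σ.toAlgHom) 2 _
    obtain ⟨h₁', hs₁⟩ := smul_some W σ h₁
    obtain ⟨h₂', hs₂⟩ := smul_some W σ h₂
    rw [hs₁] at hk hσQ
    rw [hs₂] at hσQ
    rcases five_cases hP5 hQ hk hσQ with h0 | ⟨ha, hb⟩ | ⟨ha, hb⟩ | ⟨ha, hb⟩ | ⟨ha, hb⟩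
    · exact absurd h0 (Point.some_ne_zero _)
    · exact Or.inl ⟨Point.X_eq_iff.2 (Or.inl ha), Point.X_eq_iff.2 (Or.inl hb)⟩
    · exact Or.inr ⟨Point.X_eq_iff.2 (Or.inl ha), Point.X_eq_iff.2 (Or.inr hb)⟩
    · exact Or.inr ⟨Point.X_eq_iff.2 (Or.inr ha), Point.X_eq_iff.2 (Or.inl hb)⟩
    · exact Or.inl ⟨Point.X_eq_iff.2 (Or.inr ha), Point.X_eq_iff.2 (Or.inr hb)⟩
  obtain ⟨u, hu⟩ := exists_rat_of_fixed (x₁ + x₂) (fun σ => by
    rcases key σ with ⟨ha, hb⟩ | ⟨ha, hb⟩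
    · rw [map_add, ha, hb]
    · rw [map_add, ha, hb, add_comm])
  obtain ⟨v, hv⟩ := exists_rat_of_fixed (x₁ * x₂) (fun σ => by
    rcases key σ with ⟨ha, hb⟩ | ⟨ha, hb⟩
    · rw [map_mul, ha, hb]
    · rw [map_mul, ha, hb, mul_comm])
  obtain ⟨ha, hb⟩ := ker5_of hne h12 h21
  rw [barCurve_b₂, barCurve_b₄, barCurve_b₆, ← hu, ← hv] at ha
  rw [barCurve_b₂, barCurve_b₄, barCurve_b₆, barCurve_b₈, ← hu, ← hv] at hb
  have hinj := (algebraMap ℚ (AlgebraicClosure ℚ)).injective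
  refine ⟨u, v, fun h0 => ?_, ?_, ?_⟩
  · have h0' := congrArg (algebraMap ℚ (AlgebraicClosure ℚ)) h0
    simp only [map_sub, map_mul, map_pow, map_ofNat, _root_.map_zero, hu, hv] at h0'
    have : (x₁ - x₂) ^ 2 = 0 := by linear_combination h0'
    exact hne (sub_eq_zero.1 (pow_eq_zero_iff (by norm_num) |>.1 this))
  · apply hinj
    rw [_root_.map_zero, ← ha]
    simp only [ker5a, map_sub, map_mul, map_pow, map_ofNat]
  · apply hinj
    rw [_root_.map_zero, ← hb]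
    simp only [ker5b, map_add, map_sub, map_mul, map_pow, map_ofNat]

end Fermat.Agent.S51
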