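import Fermat.Agent.S51.Defs

/-!
# S51, module C: from a rational 3-isogeny and a rational 5-isogeny to a rational point of X₀(15)
-/

set_option autoImplicit false

namespace Fermat.Agent.S51

/-- The statement about rational points on `w² = -t(4t-1)(25t-4)` (the curve 15a1) that is
proved in `Descent.lean`. -/
def RatPointsT : Prop :=
  ∀ t w : ℚ, w ^ 2 = -t * (4 * t - 1) * (25 * t - 4) →
    t = 0 ∨ t = 1 / 4 ∨ t = 4 / 25 ∨ t = 1 / 5 ∨ t = -1 / 5

/-- Module C in coordinates where the 3-torsion point has `x = 0` (so `b₈ = 0`). -/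
theorem moduli_aux (hD : RatPointsT) (a b c u v : ℚ) (hrel : a * c = b ^ 2)
    (huv : u ^ 2 - 4 * v ≠ 0)
    (ha : ker5a a b c u v = 0) (hb : ker5b a b c 0 u v = 0)
    (hΔ : discb a b c 0 ≠ 0) :
    2 * c4b a b ^ 3 = -25 * discb a b c 0 ∨
    8 * c4b a b ^ 3 = -349938025 * discb a b c 0 ∨
    32 * c4b a b ^ 3 = -121945 * discb a b c 0 ∨
    32768 * c4b a b ^ 3 = 46969655 * discb a b c 0 := by
  simp only [ker5a, ker5b, discb, c4b] at *
  have hc : c = u ^ 3 - 6 * u * v - b * u - a * v := by linarith
  subst hc
  have hi : b * (v - u ^ 2) = a * u * v + 5 * v ^ 2 + 5 * u ^ 2 * v - u ^ 4 := by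
    linear_combination (-1 / 2 : ℚ) * hb
  have hQ : v ^ 3 * a ^ 2 + 3 * u * v ^ 2 * (7 * v - u ^ 2) * a
      + (5 * v ^ 2 + 5 * u ^ 2 * v - u ^ 4) ^ 2 = 0 := by
    linear_combination (-(v - u ^ 2) ^ 2) * hrel
      - (a * u * (v - u ^ 2) + (a * u * v + 5 * v ^ 2 + 5 * u ^ 2 * v - u ^ 4)
          + b * (v - u ^ 2)) * hi
  by_cases hu : u = 0
  · -- the point at infinity of 15a1
    subst hu
    have hv : v ≠ 0 := by
      intro hv; apply huv; rw [hv]; ring
    have hb5 : b = 5 * v := by
      have : v * (b - 5 * v) = 0 := by linear_combination hi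
      rcases mul_eq_zero.mp this with h | h
      · exact absurd h hv
      · linarith
    subst hb5
    have ha2 : a ^ 2 = -25 * v := by
      have : v * (a ^ 2 + 25 * v) = 0 := by linear_combination (-1 : ℚ) * hrel
      rcases mul_eq_zero.mp this with h | h
      · exact absurd h hv
      · linarith
    right; right; left
    grind
  · have hv0 : v ≠ 0 := by
      intro hv
      subst hv
      apply hu
      have : u ^ 8 = 0 := by linear_combination hQ
      exact pow_eq_zero_iff (by norm_num) |>.mp this
    have hvu : v - u ^ 2 ≠ 0 := by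
      intro hv
      have hv' : v = u ^ 2 := by linarith
      subst hv'
      have h1 : u ^ 3 * (a + 9 * u) = 0 := by linear_combination (-1 : ℚ) * hi
      have h2 : a = -9 * u := by
        rcases mul_eq_zero.mp h1 with h | h
        · exact absurd (pow_eq_zero_iff (by norm_num) |>.mp h) hu
        · linarith
      subst h2
      have h3 : (2 * b - 9 * u ^ 2) ^ 2 + 63 * u ^ 4 = 0 := by linear_combination (-4 : ℚ) * hrel
      have h4 : u ^ 4 = 0 := by nlinarith [sq_nonneg (2 * b - 9 * u ^ 2), sq_nonneg (u ^ 2)]
      exact hu (pow_eq_zero_iff (by norm_num) |>.mp h4)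
    have hw : ((2 * v ^ 3 * a + 3 * u * v ^ 2 * (7 * v - u ^ 2)) / (v * (v - u ^ 2) * u ^ 3)) ^ 2
        = -(v / u ^ 2) * (4 * (v / u ^ 2) - 1) * (25 * (v / u ^ 2) - 4) := by
      field_simp
      linear_combination (4 : ℚ) * hQ
    rcases hD _ _ hw with h | h | h | h | h
    · exfalso
      rcases div_eq_zero_iff.mp h with h | h
      · exact hv0 h
      · exact hu (pow_eq_zero_iff (by norm_num) |>.mp h)
    · exfalso
      apply huv
      field_simp at h
      linarith
    · -- t = 4/25
      have hv : v = 4 / 25 * u ^ 2 := by field_simp at h ⊢; linarith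
      subst hv
      have hu2 : u ^ 2 ≠ 0 := pow_ne_zero 2 hu
      have hu6 : u ^ 6 ≠ 0 := pow_ne_zero 6 hu
      have h1 : u ^ 6 * (8 * a + 9 * u) ^ 2 = 0 := by linear_combination (15625 : ℚ) * hQ
      have h2 : a = -9 / 8 * u := by
        rcases mul_eq_zero.mp h1 with h | h
        · exact absurd h hu6
        · have := pow_eq_zero_iff (two_ne_zero) |>.mp h
          linarith
      subst h2
      have h3 : b = 3 / 10 * u ^ 2 := by
        have : u ^ 2 * (b - 3 / 10 * u ^ 2) = 0 := by linear_combination (-25 / 21 : ℚ) * hi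
        rcases mul_eq_zero.mp this with h | h
        · exact absurd h hu2
        · linarith
      subst h3
      right; right; right; ring
    · -- t = 1/5
      have hv : v = 1 / 5 * u ^ 2 := by field_simp at h ⊢; linarith
      subst hv
      have hu2 : u ^ 2 ≠ 0 := pow_ne_zero 2 hu
      have hu6 : u ^ 6 ≠ 0 := pow_ne_zero 6 hu
      have h1 : u ^ 6 * ((a + u) * (a + 5 * u)) = 0 := by linear_combination (125 : ℚ) * hQ
      have h2 : a = -u ∨ a = -5 * u := by
        rcases mul_eq_zero.mp h1 with h | h
        · exact absurd h hu6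
        · rcases mul_eq_zero.mp h with h | h
          · left; linarith
          · right; linarith
      rcases h2 with h2 | h2
      · exfalso
        subst h2
        have h3 : b = 0 := by
          have : u ^ 2 * b = 0 := by linear_combination (-5 / 4 : ℚ) * hi
          rcases mul_eq_zero.mp this with h | h
          · exact absurd h hu2
          · exact h
        subst h3
        apply hΔ; ring
      · subst h2
        have h3 : b = u ^ 2 := by
          have : u ^ 2 * (b - u ^ 2) = 0 := by linear_combination (-5 / 4 : ℚ) * hi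
          rcases mul_eq_zero.mp this with h | h
          · exact absurd h hu2
          · linarith
        subst h3
        left; ring
    · -- t = -1/5
      have hv : v = -1 / 5 * u ^ 2 := by field_simp at h ⊢; linarith
      subst hv
      have hu2 : u ^ 2 ≠ 0 := pow_ne_zero 2 hu
      have hu6 : u ^ 6 ≠ 0 := pow_ne_zero 6 hu
      have h1 : u ^ 6 * ((a - 9 * u) * (a + 45 * u)) = 0 := by linear_combination (-125 : ℚ) * hQ
      have h2 : a = 9 * u ∨ a = -45 * u := by
        rcases mul_eq_zero.mp h1 with h | h
        · exact absurd h hu6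
        · rcases mul_eq_zero.mp h with h | h
          · left; linarith
          · right; linarith
      rcases h2 with h2 | h2
      · exfalso
        subst h2
        have h3 : b = 3 * u ^ 2 := by
          have : u ^ 2 * (b - 3 * u ^ 2) = 0 := by linear_combination (-5 / 6 : ℚ) * hi
          rcases mul_eq_zero.mp this with h | h
          · exact absurd h hu2
          · linarith
        subst h3
        apply hΔ; ring
      · subst h2
        have h3 : b = -6 * u ^ 2 := by
          have : u ^ 2 * (b + 6 * u ^ 2) = 0 := by linear_combination (-5 / 6 : ℚ) * hi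
          rcases mul_eq_zero.mp this with h | h
          · exact absurd h hu2
          · linarith
        subst h3
        right; left; ring

/-- Module C: a rational root `r` of the 3-division polynomial and a rational kernel polynomial
`X² - uX + v` of a 5-isogeny force one of the four non-cuspidal `j`-invariants of `X₀(15)`. -/
theorem moduli (hD : RatPointsT) (b2 b4 b6 b8 r u v : ℚ) (hrel : 4 * b8 = b2 * b6 - b4 ^ 2)
    (hr : psi3 b2 b4 b6 b8 r = 0) (huv : u ^ 2 - 4 * v ≠ 0)
    (ha : ker5a b2 b4 b6 u v = 0) (hb : ker5b b2 b4 b6 b8 u v = 0)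
    (hΔ : discb b2 b4 b6 b8 ≠ 0) :
    2 * c4b b2 b4 ^ 3 = -25 * discb b2 b4 b6 b8 ∨
    8 * c4b b2 b4 ^ 3 = -349938025 * discb b2 b4 b6 b8 ∨
    32 * c4b b2 b4 ^ 3 = -121945 * discb b2 b4 b6 b8 ∨
    32768 * c4b b2 b4 ^ 3 = 46969655 * discb b2 b4 b6 b8 := by
  have hc4 : c4b (b2 + 12 * r) (b4 + r * b2 + 6 * r ^ 2) = c4b b2 b4 := by
    simp only [c4b]; ring
  have hdisc : discb (b2 + 12 * r) (b4 + r * b2 + 6 * r ^ 2)
      (b6 + 2 * r * b4 + r ^ 2 * b2 + 4 * r ^ 3) 0 = discb b2 b4 b6 b8 := by
    simp only [discb, psi3] at *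
    linear_combination (b2 + 12 * r) ^ 2 * hr + (-6 * b2 * r - 36 * r ^ 2) * hrel
  have key := moduli_aux hD (b2 + 12 * r) (b4 + r * b2 + 6 * r ^ 2)
    (b6 + 2 * r * b4 + r ^ 2 * b2 + 4 * r ^ 3) (u - 2 * r) (v - r * u + r ^ 2)
    (by simp only [psi3] at hr; linear_combination 4 * hr - hrel)
    (by intro h; apply huv; linear_combination h)
    (by simp only [ker5a] at *; linear_combination ha)
    (by simp only [ker5b, psi3] at *; linear_combination hb + 2 * hr)
    (by rw [hdisc]; exact hΔ)
  rw [hc4, hdisc] at key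
  exact key

end Fermat.Agent.S51
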