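import Mathlib

/-!
# S51: shared definitions

`dupN / dupM` is the x-coordinate duplication map of a Weierstrass curve, written with the
b-invariants; `psi3` is the 3-division polynomial, `ker5a`, `ker5b` are the two symmetric
equations satisfied by `u = x(P) + x(2P)`, `v = x(P) * x(2P)` for a point `P` of order 5.
-/

set_option autoImplicit false

namespace Fermat.Agent.S51

variable {R : Type*} [CommRing R]

/-- numerator of `x(2P)` -/
def dupN (b4 b6 b8 x : R) : R := x ^ 4 - b4 * x ^ 2 - 2 * b6 * x - b8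

/-- denominator of `x(2P)` -/
def dupM (b2 b4 b6 x : R) : R := 4 * x ^ 3 + b2 * x ^ 2 + 2 * b4 * x + b6

/-- the 3-division polynomial -/
def psi3 (b2 b4 b6 b8 x : R) : R := 3 * x ^ 4 + b2 * x ^ 3 + 3 * b4 * x ^ 2 + 3 * b6 * x + b8

/-- first (weight 3) equation for the kernel polynomial `X^2 - u X + v` of a 5-isogeny -/
def ker5a (b2 b4 b6 u v : R) : R := u ^ 3 - 6 * u * v - b4 * u - b2 * v - b6

/-- second (weight 4) equation for the kernel polynomial `X^2 - u X + v` of a 5-isogeny -/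
def ker5b (b2 b4 b6 b8 u v : R) : R :=
  u ^ 4 - 8 * u ^ 2 * v + 10 * v ^ 2 - b4 * u ^ 2 - 2 * b4 * v - 3 * b6 * u - b2 * u * v - 2 * b8

/-- `c₄` in terms of b-invariants -/
def c4b (b2 b4 : R) : R := b2 ^ 2 - 24 * b4

/-- discriminant in terms of b-invariants -/
def discb (b2 b4 b6 b8 : R) : R := -b2 ^ 2 * b8 - 8 * b4 ^ 3 - 27 * b6 ^ 2 + 9 * b2 * b4 * b6

end Fermat.Agent.S51
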