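import Fermat.Agent.S51.Defs

/-!
# S51: the x-coordinate duplication formula, 3-torsion and 5-torsion relations
-/

set_option autoImplicit false

namespace Fermat.Agent.S51

open WeierstrassCurve WeierstrassCurve.Affine WeierstrassCurve.Affine.Point

variable {F : Type*} [Field F] {V : WeierstrassCurve.Affine F}

theorem dupM_eq {x y : F} (h : V.Equation x y) :
    (2 * y + V.a₁ * x + V.a₃) ^ 2 = dupM V.b₂ V.b₄ V.b₆ x := by
  have h' := (equation_iff x y).1 h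
  simp only [dupM, b₂, b₄, b₆]
  linear_combination (4 : F) * h'

theorem dupN_eq {x y : F} (h : V.Equation x y) :
    (3 * x ^ 2 + 2 * V.a₂ * x + V.a₄ - V.a₁ * y) ^ 2 +
        V.a₁ * (3 * x ^ 2 + 2 * V.a₂ * x + V.a₄ - V.a₁ * y) * (2 * y + V.a₁ * x + V.a₃) -
        (V.a₂ + 2 * x) * (2 * y + V.a₁ * x + V.a₃) ^ 2 =
      dupN V.b₄ V.b₆ V.b₈ x := by
  have h' := (equation_iff x y).1 h
  simp only [dupN, b₄, b₆, b₈]
  linear_combination (-V.a₁ ^ 2 - 4 * V.a₂ - 8 * x) * h'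

theorem dupN_ne_zero {x y : F} (h : V.Nonsingular x y) (hM : dupM V.b₂ V.b₄ V.b₆ x = 0) :
    dupN V.b₄ V.b₆ V.b₈ x ≠ 0 := by
  have hs : 2 * y + V.a₁ * x + V.a₃ = 0 := by
    have := dupM_eq h.1
    rw [hM] at this
    exact pow_eq_zero_iff (two_ne_zero) |>.1 this
  rw [← dupN_eq h.1, hs]
  have h2 := (nonsingular_iff x y).1 h
  rcases h2.2 with h3 | h3
  · intro h4
    apply h3
    have h5 : (3 * x ^ 2 + 2 * V.a₂ * x + V.a₄ - V.a₁ * y) ^ 2 = 0 := by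
      linear_combination h4
    have h6 := pow_eq_zero_iff (two_ne_zero) |>.1 h5
    linear_combination -h6
  · exact absurd (by linear_combination hs) h3

variable [DecidableEq F]

theorem add_self_eq_zero_iff {x y : F} (h : V.Nonsingular x y) :
    (Point.some x y h + Point.some x y h = 0) ↔ dupM V.b₂ V.b₄ V.b₆ x = 0 := by
  rw [← dupM_eq h.1]
  constructor
  · intro h0
    by_cases hy : y = V.negY x y
    · have : 2 * y + V.a₁ * x + V.a₃ = 0 := by
        rw [negY] at hy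
        linear_combination hy
      rw [this]; ring
    · rw [Point.add_self_of_Y_ne hy] at h0
      exact absurd h0 (Point.some_ne_zero _)
  · intro h0
    have hs : 2 * y + V.a₁ * x + V.a₃ = 0 := pow_eq_zero_iff (two_ne_zero) |>.1 h0
    apply Point.add_self_of_Y_eq
    rw [negY]
    linear_combination hs

theorem add_self_eq_some {x y : F} (h : V.Nonsingular x y) (hM : dupM V.b₂ V.b₄ V.b₆ x ≠ 0) :
    ∃ y' h', Point.some x y h + Point.some x y h =
      Point.some (dupN V.b₄ V.b₆ V.b₈ x / dupM V.b₂ V.b₄ V.b₆ x) y' h' := by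
  have hs : 2 * y + V.a₁ * x + V.a₃ ≠ 0 := by
    intro h0
    apply hM
    rw [← dupM_eq h.1, h0]; ring
  have hy : y ≠ V.negY x y := by
    intro hy
    apply hs
    rw [negY] at hy
    linear_combination hy
  have hX : V.addX x x (V.slope x x y y) = dupN V.b₄ V.b₆ V.b₈ x / dupM V.b₂ V.b₄ V.b₆ x := by
    rw [slope_of_Y_ne rfl hy, ← dupN_eq h.1, ← dupM_eq h.1, addX, negY]
    have e : y - (-y - V.a₁ * x - V.a₃) = 2 * y + V.a₁ * x + V.a₃ := by ring
    rw [e]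
    generalize 2 * y + V.a₁ * x + V.a₃ = s at hs
    generalize 3 * x ^ 2 + 2 * V.a₂ * x + V.a₄ - V.a₁ * y = g
    field_simp
    ring
  have key := Point.add_self_of_Y_ne (h₁ := h) hy
  have hns := nonsingular_add h h (fun hxy => hy hxy.2)
  rw [hX] at hns
  refine ⟨_, hns, ?_⟩
  rw [key]
  congr 1

theorem three_nsmul_eq_zero_iff {x y : F} (h : V.Nonsingular x y) :
    (3 : ℕ) • (Point.some x y h : V.Point) = 0 ↔ psi3 V.b₂ V.b₄ V.b₆ V.b₈ x = 0 := by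
  have hpsi : dupN V.b₄ V.b₆ V.b₈ x - x * dupM V.b₂ V.b₄ V.b₆ x = -psi3 V.b₂ V.b₄ V.b₆ V.b₈ x := by
    simp only [dupN, dupM, psi3]; ring
  have h3 : (3 : ℕ) • (Point.some x y h : V.Point) = 0 ↔
      Point.some x y h + Point.some x y h = -Point.some x y h := by
    rw [eq_neg_iff_add_eq_zero, show (3 : ℕ) = 2 + 1 from rfl, add_nsmul, two_nsmul, one_nsmul]
  rw [h3]
  by_cases hM : dupM V.b₂ V.b₄ V.b₆ x = 0
  · have hN := dupN_ne_zero h hM
    constructor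
    · intro h2
      rw [(add_self_eq_zero_iff h).2 hM] at h2
      exact absurd (neg_eq_zero.1 h2.symm) (Point.some_ne_zero _)
    · intro h0
      rw [h0, hM] at hpsi
      exact absurd (by linear_combination hpsi) hN
  · obtain ⟨y', h', e⟩ := add_self_eq_some h hM
    rw [e]
    constructor
    · intro h2
      have hx : dupN V.b₄ V.b₆ V.b₈ x / dupM V.b₂ V.b₄ V.b₆ x = x := Point.X_eq_iff.2 (Or.inr h2)
      rw [div_eq_iff hM] at hx
      linear_combination hpsi - hx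
    · intro h0
      have hx : dupN V.b₄ V.b₆ V.b₈ x / dupM V.b₂ V.b₄ V.b₆ x = x := by
        rw [div_eq_iff hM]
        linear_combination hpsi - h0
      rcases (Point.X_eq_iff (h₁ := h') (h₂ := h)).1 hx with h2 | h2
      · rw [h2] at e
        exact absurd (add_eq_right.1 e) (Point.some_ne_zero _)
      · exact h2

theorem five_torsion {x₁ y₁ : F} (h : V.Nonsingular x₁ y₁)
    (h5 : (5 : ℕ) • (Point.some x₁ y₁ h : V.Point) = 0) :
    ∃ x₂ y₂ h₂, (2 : ℕ) • (Point.some x₁ y₁ h : V.Point) = Point.some x₂ y₂ h₂ ∧ x₁ ≠ x₂ ∧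
      dupM V.b₂ V.b₄ V.b₆ x₁ ≠ 0 ∧ dupM V.b₂ V.b₄ V.b₆ x₂ ≠ 0 ∧
      dupN V.b₄ V.b₆ V.b₈ x₁ = x₂ * dupM V.b₂ V.b₄ V.b₆ x₁ ∧
      dupN V.b₄ V.b₆ V.b₈ x₂ = x₁ * dupM V.b₂ V.b₄ V.b₆ x₂ := by
  set P : V.Point := Point.some x₁ y₁ h with hP
  have hP0 : P ≠ 0 := Point.some_ne_zero _
  have hM1 : dupM V.b₂ V.b₄ V.b₆ x₁ ≠ 0 := by
    intro hM
    have h2 : P + P = 0 := (add_self_eq_zero_iff h).2 hM
    apply hP0
    have : (5 : ℕ) • P = P + P + (P + P) + P := by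
      simp only [show (5 : ℕ) = 1 + 1 + (1 + 1) + 1 from rfl, add_nsmul, one_nsmul]
    rw [this, h2] at h5
    simp at h5
  obtain ⟨y₂, h₂, e⟩ := add_self_eq_some h hM1
  set x₂ := dupN V.b₄ V.b₆ V.b₈ x₁ / dupM V.b₂ V.b₄ V.b₆ x₁ with hx₂
  set Q : V.Point := Point.some x₂ y₂ h₂ with hQ
  have e' : P + P = Q := e
  have h5' : Q + Q = -P := by
    rw [eq_neg_iff_add_eq_zero, ← e', ← h5]
    simp only [show (5 : ℕ) = 1 + 1 + (1 + 1) + 1 from rfl, add_nsmul, one_nsmul]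
  have hM2 : dupM V.b₂ V.b₄ V.b₆ x₂ ≠ 0 := by
    intro hM
    have h2 : Q + Q = 0 := (add_self_eq_zero_iff h₂).2 hM
    rw [h2] at h5'
    exact hP0 (neg_eq_zero.1 h5'.symm)
  obtain ⟨y₃, h₃, e3⟩ := add_self_eq_some h₂ hM2
  have e3' : Q + Q = Point.some _ y₃ h₃ := e3
  refine ⟨x₂, y₂, h₂, by rw [two_nsmul]; exact e, ?_, hM1, hM2, ?_, ?_⟩
  · intro hx
    rcases (Point.X_eq_iff (h₁ := h) (h₂ := h₂)).1 hx with h2 | h2
    · -- P = Q = P + P
      have : P = P + P := by rw [e']; exact h2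
      exact hP0 (left_eq_add.1 this)
    · -- P = -Q, so 3P = 0, with 5P = 0 gives P = 0
      have hPQ : P = -Q := h2
      have hQP : Q = -P := by rw [hPQ, neg_neg]
      rw [hQP] at h5'
      -- -P + -P = -P
      have : -P = 0 := by
        have := h5'
        exact add_eq_left.1 this
      exact hP0 (neg_eq_zero.1 this)
  · rw [hx₂, div_mul_cancel₀ _ hM1]
  · have hx : dupN V.b₄ V.b₆ V.b₈ x₂ / dupM V.b₂ V.b₄ V.b₆ x₂ = x₁ := by
      apply (Point.X_eq_iff (h₁ := h₃) (h₂ := h)).2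
      right
      rw [← e3']; exact h5'
    rw [div_eq_iff hM2] at hx
    exact hx

theorem five_nsmul_eq_zero {x₁ y₁ x₂ : F} (h : V.Nonsingular x₁ y₁)
    (hM : dupM V.b₂ V.b₄ V.b₆ x₁ ≠ 0)
    (h12 : dupN V.b₄ V.b₆ V.b₈ x₁ = x₂ * dupM V.b₂ V.b₄ V.b₆ x₁) (hne : x₁ ≠ x₂)
    (h21 : dupN V.b₄ V.b₆ V.b₈ x₂ = x₁ * dupM V.b₂ V.b₄ V.b₆ x₂) :
    (5 : ℕ) • (Point.some x₁ y₁ h : V.Point) = 0 := by
  set P : V.Point := Point.some x₁ y₁ h with hP
  have hP0 : P ≠ 0 := Point.some_ne_zero _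
  obtain ⟨y₂, h₂, e⟩ := add_self_eq_some h hM
  have hx₂ : dupN V.b₄ V.b₆ V.b₈ x₁ / dupM V.b₂ V.b₄ V.b₆ x₁ = x₂ := by
    rw [div_eq_iff hM]; exact h12
  subst hx₂
  set x₂ := dupN V.b₄ V.b₆ V.b₈ x₁ / dupM V.b₂ V.b₄ V.b₆ x₁ with hx₂
  set Q : V.Point := Point.some x₂ y₂ h₂ with hQ
  have e' : P + P = Q := e
  have hM2 : dupM V.b₂ V.b₄ V.b₆ x₂ ≠ 0 := by
    intro hM2
    have := dupN_ne_zero h₂ hM2
    rw [h21, hM2, mul_zero] at this
    exact this rfl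
  obtain ⟨y₃, h₃, e3⟩ := add_self_eq_some h₂ hM2
  have e3' : Q + Q = Point.some _ y₃ h₃ := e3
  have hx : dupN V.b₄ V.b₆ V.b₈ x₂ / dupM V.b₂ V.b₄ V.b₆ x₂ = x₁ := by
    rw [div_eq_iff hM2]; exact h21
  have h5 : (5 : ℕ) • P = Q + Q + P := by
    rw [← e']
    simp only [show (5 : ℕ) = 1 + 1 + (1 + 1) + 1 from rfl, add_nsmul, one_nsmul]
  rw [h5]
  rcases (Point.X_eq_iff (h₁ := h₃) (h₂ := h)).1 hx with h2 | h2
  · -- Q + Q = P : then 3P = 0, Q = -P, x₂ = x₁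
    exfalso
    have h4 : Q + Q = P := by rw [e3']; exact h2
    have hQP : Q = -P := by
      have h6 : P + P + (P + P) = P := by rw [e']; exact h4
      have h7 : P + P + P = 0 := by
        have : (P + P + P) + P = P := by
          calc (P + P + P) + P = P + P + (P + P) := by abel
            _ = P := h6
        exact add_eq_right.1 this
      rw [← e']
      exact eq_neg_of_add_eq_zero_left h7
    apply hne
    exact ((Point.X_eq_iff (h₁ := h₂) (h₂ := h)).2 (Or.inr hQP)).symm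
  · have h4 : Q + Q = -P := by rw [e3']; exact h2
    rw [h4]; simp

omit [DecidableEq F] in
theorem ker5_of {b2 b4 b6 b8 x₁ x₂ : F} (hne : x₁ ≠ x₂)
    (h12 : dupN b4 b6 b8 x₁ = x₂ * dupM b2 b4 b6 x₁)
    (h21 : dupN b4 b6 b8 x₂ = x₁ * dupM b2 b4 b6 x₂) :
    ker5a b2 b4 b6 (x₁ + x₂) (x₁ * x₂) = 0 ∧ ker5b b2 b4 b6 b8 (x₁ + x₂) (x₁ * x₂) = 0 := by
  have hd : x₁ - x₂ ≠ 0 := sub_ne_zero.2 hne
  simp only [dupN, dupM] at h12 h21
  constructor
  · apply mul_left_cancel₀ hd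
    simp only [ker5a]
    linear_combination h12 - h21
  · simp only [ker5b]
    linear_combination h12 + h21

end Fermat.Agent.S51
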