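import Mathlib

/-!
# S51: Fermat-style descent on `n² = m⁴ - 7 m² e² + 16 e⁴` (the curve 15a8)
and the rational points of `w² = -t(4t-1)(25t-4)` (the curve 15a1 = X₀(15)).

* `descent_step`: a coprime solution `(m, e)` with `m` odd, `e ≠ 0` comes from a smaller one
  (inverse of the duplication map), via two Pythagorean parametrisations.
* `no_nontrivial`: strong induction on `|m e|`.
* `quartic_rat`: `ν² = μ⁴ - 7 μ² + 16` over `ℚ` forces `μ = 0` or `μ² = 4`.
* `rat_points_t`: push a point of 15a1 along the 4-isogeny to 15a8.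
-/

set_option autoImplicit false

namespace Fermat.Agent.S51.Quartic

lemma pyth {x y z : ℤ} (h : x ^ 2 + y ^ 2 = z ^ 2) (hc : IsCoprime x y) (hx : x % 2 = 1) :
    ∃ p q : ℤ, x = p ^ 2 - q ^ 2 ∧ y = 2 * p * q ∧ IsCoprime p q ∧
      (p % 2 = 0 ∧ q % 2 = 1 ∨ p % 2 = 1 ∧ q % 2 = 0) := by
  have hp : PythagoreanTriple x y z := by
    unfold PythagoreanTriple; nlinarith
  obtain ⟨p, q, h1, -, h3, h4⟩ :=
    PythagoreanTriple.coprime_classification.mp ⟨hp, Int.isCoprime_iff_gcd_eq_one.mp hc⟩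
  rcases h1 with ⟨h1, h2⟩ | ⟨h1, h2⟩
  · exact ⟨p, q, h1, h2, Int.isCoprime_iff_gcd_eq_one.mpr h3, h4⟩
  · exfalso
    rw [h1, mul_assoc] at hx
    omega

lemma sq_mod_eight {a : ℤ} (ha : a % 2 = 1) : a ^ 2 % 8 = 1 := by
  have h : a % 8 = 1 ∨ a % 8 = 3 ∨ a % 8 = 5 ∨ a % 8 = 7 := by omega
  rcases h with h | h | h | h <;> simp [pow_two, Int.mul_emod, h]

def Sol (m e : ℤ) : Prop :=
  IsCoprime m e ∧ ∃ n : ℤ, n ^ 2 = m ^ 4 - 7 * m ^ 2 * e ^ 2 + 16 * e ^ 4

lemma coprime_two {m : ℤ} (hm : m % 2 = 1) : IsCoprime m 2 := ⟨1, -(m / 2), by omega⟩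

lemma coprime_four {m : ℤ} (hm : m % 2 = 1) : IsCoprime m 4 := by
  have := (coprime_two hm).pow_right (n := 2)
  norm_num at this
  exact this

lemma odd_of_mul_odd {a k : ℤ} (h : (a * k) % 2 = 1) : a % 2 = 1 ∧ k % 2 = 1 := by
  rcases Int.emod_two_eq_zero_or_one a with ha | ha <;>
  rcases Int.emod_two_eq_zero_or_one k with hk | hk <;>
  simp [Int.mul_emod, ha, hk] at h ⊢

lemma four_num {m e p q : ℤ} (hm : m ≠ 0) (h : m * e = p * q) :
    ∃ a b k l : ℤ, m = a * k ∧ e = b * l ∧ p = b * k ∧ q = a * l ∧ IsCoprime a b := by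
  have hpos : 0 < Int.gcd m p := Int.gcd_pos_of_ne_zero_left _ hm
  obtain ⟨a, b, hab, hma, hpb⟩ := Int.exists_gcd_one hpos
  set k : ℤ := (Int.gcd m p : ℤ) with hk
  have hk0 : k ≠ 0 := by
    rw [hk]; exact_mod_cast hpos.ne'
  have ha0 : a ≠ 0 := by
    rintro rfl; apply hm; rw [hma]; ring
  have hab' : IsCoprime a b := Int.isCoprime_iff_gcd_eq_one.mpr hab
  have h1 : a * e = b * q := by
    have : k * (a * e) = k * (b * q) := by
      calc k * (a * e) = (a * k) * e := by ring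
        _ = m * e := by rw [← hma]
        _ = p * q := h
        _ = (b * k) * q := by rw [← hpb]
        _ = k * (b * q) := by ring
    exact mul_left_cancel₀ hk0 this
  have h2 : a ∣ q := hab'.dvd_of_dvd_mul_left ⟨e, h1.symm⟩
  obtain ⟨l, rfl⟩ := h2
  refine ⟨a, b, k, l, hma, ?_, hpb, rfl, hab'⟩
  have : a * e = a * (b * l) := by rw [h1]; ring
  exact mul_left_cancel₀ ha0 this


lemma descent_step {m e : ℤ} (hS : Sol m e) (hm : m % 2 = 1) (he : e ≠ 0) :
    ∃ g h : ℤ, Sol g h ∧ g * h ≠ 0 ∧ g ^ 2 ≠ 4 * h ^ 2 ∧ 2 * |g * h| ≤ |e| := by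
  obtain ⟨hc, n, hn⟩ := hS
  have hm0 : m ≠ 0 := by rintro rfl; simp at hm
  have h1 : (m ^ 2 - 4 * e ^ 2) ^ 2 + (m * e) ^ 2 = n ^ 2 := by rw [hn]; ring
  have hc1 : IsCoprime (m ^ 2 - 4 * e ^ 2) (m * e) := by
    have h4 : IsCoprime (4 * e ^ 2) m := (coprime_four hm).symm.mul_left hc.symm.pow_left
    have ha : IsCoprime (m ^ 2 - 4 * e ^ 2) m := by
      have h := (h4.neg_left).add_mul_left_left m
      have e1 : m ^ 2 - 4 * e ^ 2 = -(4 * e ^ 2) + m * m := by ring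
      rw [e1]; exact h
    have hb : IsCoprime (m ^ 2 - 4 * e ^ 2) e := by
      have h := (hc.pow_left (m := 2)).add_mul_left_left (-4 * e)
      have e1 : m ^ 2 - 4 * e ^ 2 = m ^ 2 + e * (-4 * e) := by ring
      rw [e1]; exact h
    exact ha.mul_right hb
  have hodd : (m ^ 2 - 4 * e ^ 2) % 2 = 1 := by
    have := sq_mod_eight hm
    omega
  obtain ⟨p, q, hx, hy, -, -⟩ := pyth h1 hc1 hodd
  have he2 : e % 2 = 0 := by
    rcases Int.emod_two_eq_zero_or_one e with h | h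
    · exact h
    · exfalso
      have h3 : (m * e) % 2 = 1 := by simp [Int.mul_emod, hm, h]
      rw [hy, mul_assoc] at h3
      omega
  obtain ⟨e', rfl⟩ : ∃ e', e = 2 * e' := ⟨e / 2, by omega⟩
  have h2 : m * e' = p * q := by linarith
  obtain ⟨a, b, k, l, rfl, rfl, rfl, rfl, hab⟩ := four_num hm0 h2
  obtain ⟨ha2, hk2⟩ := odd_of_mul_odd hm
  have ha0 : a ≠ 0 := left_ne_zero_of_mul hm0
  have hk0 : k ≠ 0 := right_ne_zero_of_mul hm0
  have hbl : b * l ≠ 0 := right_ne_zero_of_mul he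
  have hb0 : b ≠ 0 := left_ne_zero_of_mul hbl
  have hl0 : l ≠ 0 := right_ne_zero_of_mul hbl
  have key : a ^ 2 * (k ^ 2 + l ^ 2) = b ^ 2 * (k ^ 2 + 16 * l ^ 2) := by linear_combination hx
  have hdvd : a ^ 2 ∣ k ^ 2 + 16 * l ^ 2 :=
    (hab.pow (m := 2) (n := 2)).dvd_of_dvd_mul_left ⟨k ^ 2 + l ^ 2, key.symm⟩
  obtain ⟨ν, hν⟩ := hdvd
  have hν2 : k ^ 2 + l ^ 2 = b ^ 2 * ν := by
    have : a ^ 2 * (k ^ 2 + l ^ 2) = a ^ 2 * (b ^ 2 * ν) := by rw [key, hν]; ring
    exact mul_left_cancel₀ (pow_ne_zero 2 ha0) this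
  have hkl : IsCoprime k l := hc.of_mul_left_right.of_mul_right_right.of_mul_right_right
  have hν15 : ν ∣ 15 := by
    obtain ⟨u, v, huv⟩ := hkl.pow (m := 2) (n := 2)
    refine ⟨u * (16 * b ^ 2 - a ^ 2) + v * (a ^ 2 - b ^ 2), ?_⟩
    linear_combination (-15 : ℤ) * huv + (v - u) * hν + (16 * u - v) * hν2
  have hνpos : 0 < ν := by
    by_contra hneg
    rw [not_lt] at hneg
    have h3 : 0 < k ^ 2 := by positivity
    nlinarith [sq_nonneg b, sq_nonneg l, mul_nonneg (sq_nonneg b) (neg_nonneg.mpr hneg)]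
  have hν8 : ν % 8 = 1 := by
    have hA := sq_mod_eight ha2
    have hK := sq_mod_eight hk2
    obtain ⟨A', hA'⟩ : ∃ A', a ^ 2 = 8 * A' + 1 := ⟨a ^ 2 / 8, by omega⟩
    have : k ^ 2 + 16 * l ^ 2 = 8 * (A' * ν) + ν := by rw [hν, hA']; ring
    omega
  have hν1 : ν = 1 := by
    have hle : ν ≤ 15 := Int.le_of_dvd (by norm_num) hν15
    interval_cases ν <;> omega
  subst hν1
  have h5 : k ^ 2 + (4 * l) ^ 2 = a ^ 2 := by linear_combination hν
  have hc2 : IsCoprime k (4 * l) := (coprime_four hk2).mul_right hkl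
  obtain ⟨g', h', hk, hl, hgh, hpar⟩ := pyth h5 hc2 hk2
  rcases hpar with ⟨hg, hh⟩ | ⟨hg, hh⟩
  · obtain ⟨g, rfl⟩ : ∃ g, g' = 2 * g := ⟨g' / 2, by omega⟩
    have hl' : l = g * h' := by linarith
    refine ⟨h', g, ⟨hgh.of_mul_left_right.symm, b, ?_⟩, ?_, ?_, ?_⟩
    · have : b ^ 2 = k ^ 2 + l ^ 2 := by linarith
      rw [this, hk, hl']; ring
    · rw [mul_comm, ← hl']; exact hl0
    · intro hcon
      apply hk0
      rw [hk]; linear_combination -hcon
    · rw [mul_comm h' g, ← hl', abs_mul, abs_mul]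
      have : 1 ≤ |b| := Int.one_le_abs hb0
      have h0 : 0 ≤ |l| := abs_nonneg l
      simp only [abs_two]
      nlinarith
  · obtain ⟨h, rfl⟩ : ∃ h, h' = 2 * h := ⟨h' / 2, by omega⟩
    have hl' : l = g' * h := by linarith
    refine ⟨g', h, ⟨hgh.of_mul_right_right, b, ?_⟩, ?_, ?_, ?_⟩
    · have : b ^ 2 = k ^ 2 + l ^ 2 := by linarith
      rw [this, hk, hl']; ring
    · rw [← hl']; exact hl0
    · intro hcon
      apply hk0
      rw [hk]; linear_combination hcon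
    · rw [← hl', abs_mul, abs_mul]
      have : 1 ≤ |b| := Int.one_le_abs hb0
      have h0 : 0 ≤ |l| := abs_nonneg l
      simp only [abs_two]
      nlinarith


lemma abs_le_sq_sub {p q : ℤ} (h : p ^ 2 - q ^ 2 ≠ 0) :
    |q| ≤ |p ^ 2 - q ^ 2| ∧ |p| ≤ |p ^ 2 - q ^ 2| := by
  have hf : p ^ 2 - q ^ 2 = (p - q) * (p + q) := by ring
  rw [hf] at h ⊢
  have hx : 1 ≤ |p - q| := Int.one_le_abs (left_ne_zero_of_mul h)
  have hy : 1 ≤ |p + q| := Int.one_le_abs (right_ne_zero_of_mul h)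
  rw [abs_mul]
  have h1 : |2 * q| ≤ |p + q| + |p - q| := by
    have : 2 * q = (p + q) - (p - q) := by ring
    rw [this]; exact abs_sub _ _
  have h2 : |2 * p| ≤ |p + q| + |p - q| := by
    have : 2 * p = (p + q) + (p - q) := by ring
    rw [this]; exact abs_add_le _ _
  rw [abs_mul, abs_two] at h1 h2
  constructor <;> nlinarith [mul_nonneg (sub_nonneg.mpr hx) (sub_nonneg.mpr hy)]

theorem no_nontrivial : ∀ (N : ℕ) (m e : ℤ), (m * e).natAbs = N → Sol m e → m * e ≠ 0 →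
    m ^ 2 ≠ 4 * e ^ 2 → False := by
  intro N
  induction N using Nat.strong_induction_on with
  | _ N ih =>
    intro m e hN hS hme hne
    have fin : ∀ g h : ℤ, Sol g h → g * h ≠ 0 → g ^ 2 ≠ 4 * h ^ 2 → |g * h| < |m * e| →
        False := by
      intro g h hS' h1 h2 h3
      refine ih (g * h).natAbs ?_ g h rfl hS' h1 h2
      rw [← hN]
      have : ((g * h).natAbs : ℤ) < ((m * e).natAbs : ℤ) := by
        simpa [Int.natCast_natAbs] using h3
      exact_mod_cast this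
    have hm0 : m ≠ 0 := left_ne_zero_of_mul hme
    have he0 : e ≠ 0 := right_ne_zero_of_mul hme
    rcases Int.emod_two_eq_zero_or_one m with hm2 | hm2
    · have he2 : e % 2 = 1 := by
        obtain ⟨u, v, huv⟩ := hS.1
        rcases Int.emod_two_eq_zero_or_one e with h | h
        · exfalso
          obtain ⟨m', rfl⟩ : ∃ m', m = 2 * m' := ⟨m / 2, by omega⟩
          obtain ⟨e', rfl⟩ : ∃ e', e = 2 * e' := ⟨e / 2, by omega⟩
          have : 2 * (u * m' + v * e') = 1 := by linarith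
          omega
        · exact h
      obtain ⟨m1, rfl⟩ : ∃ m1, m = 2 * m1 := ⟨m / 2, by omega⟩
      obtain ⟨hc, n, hn⟩ := hS
      have hm10 : m1 ≠ 0 := right_ne_zero_of_mul hm0
      rcases Int.emod_two_eq_zero_or_one m1 with hm1 | hm1
      · obtain ⟨m2, rfl⟩ : ∃ m2, m1 = 2 * m2 := ⟨m1 / 2, by omega⟩
        have hm20 : m2 ≠ 0 := right_ne_zero_of_mul hm10
        have h16 : (4 : ℤ) ^ 2 ∣ n ^ 2 :=
          ⟨16 * m2 ^ 4 - 7 * m2 ^ 2 * e ^ 2 + e ^ 4, by rw [hn]; ring⟩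
        obtain ⟨n', rfl⟩ := (Int.pow_dvd_pow_iff (by norm_num)).mp h16
        have hS' : Sol e m2 :=
          ⟨(hc.of_mul_left_right.of_mul_left_right).symm, n', by linarith⟩
        obtain ⟨g, h, hS'', h1, h2, h3⟩ := descent_step hS' he2 hm20
        apply fin g h hS'' h1 h2
        have h4 : 1 ≤ |e| := Int.one_le_abs he0
        have h5 : 1 ≤ |m2| := Int.one_le_abs hm20
        rw [abs_mul (2 * (2 * m2)) e, abs_mul 2, abs_mul 2, abs_two]
        nlinarith
      · have h4 : (2 : ℤ) ^ 2 ∣ n ^ 2 :=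
          ⟨4 * m1 ^ 4 - 7 * m1 ^ 2 * e ^ 2 + 4 * e ^ 4, by rw [hn]; ring⟩
        obtain ⟨n', rfl⟩ := (Int.pow_dvd_pow_iff (by norm_num)).mp h4
        have hn' : n' ^ 2 = 4 * m1 ^ 4 - 7 * m1 ^ 2 * e ^ 2 + 4 * e ^ 4 := by linarith
        have hP : (m1 * e) ^ 2 + (2 * (m1 ^ 2 - e ^ 2)) ^ 2 = n' ^ 2 := by rw [hn']; ring
        have hc' : IsCoprime m1 e := hc.of_mul_left_right
        have hcop : IsCoprime (m1 * e) (2 * (m1 ^ 2 - e ^ 2)) := by
          have ha : IsCoprime m1 (m1 ^ 2 - e ^ 2) := by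
            have h := (hc'.pow_right (n := 2)).neg_right.add_mul_left_right m1
            have e1 : m1 ^ 2 - e ^ 2 = -e ^ 2 + m1 * m1 := by ring
            rw [e1]; exact h
          have hb : IsCoprime e (m1 ^ 2 - e ^ 2) := by
            have h := (hc'.symm.pow_right (n := 2)).add_mul_left_right (-e)
            have e1 : m1 ^ 2 - e ^ 2 = m1 ^ 2 + e * -e := by ring
            rw [e1]; exact h
          exact ((coprime_two hm1).mul_right ha).mul_left ((coprime_two he2).mul_right hb)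
        have hodd : (m1 * e) % 2 = 1 := by simp [Int.mul_emod, hm1, he2]
        obtain ⟨p, q, hx, hy, hpq, hpar⟩ := pyth hP hcop hodd
        have hpq' : p * q = m1 ^ 2 - e ^ 2 := by linarith
        have hpq0 : p * q ≠ 0 := by
          rw [hpq']; intro h; apply hne; linear_combination 4 * h
        have hp0 : p ≠ 0 := left_ne_zero_of_mul hpq0
        have hq0 : q ≠ 0 := right_ne_zero_of_mul hpq0
        obtain ⟨r, hr⟩ : ∃ r, m1 ^ 2 + e ^ 2 = 2 * r :=
          ⟨(m1 ^ 2 + e ^ 2) / 2, by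
            have := sq_mod_eight hm1; have := sq_mod_eight he2; omega⟩
        have hid : 4 * p ^ 4 - 7 * p ^ 2 * q ^ 2 + 4 * q ^ 4 = (2 * r) ^ 2 := by
          rw [← hr]
          have : 4 * p ^ 4 - 7 * p ^ 2 * q ^ 2 + 4 * q ^ 4
              = 4 * (p ^ 2 - q ^ 2) ^ 2 + (p * q) ^ 2 := by ring
          rw [this, ← hx, hpq']; ring
        have hne0 : p ^ 2 - q ^ 2 ≠ 0 := by
          rw [← hx]; exact mul_ne_zero hm10 he0
        obtain ⟨hbq, hbp⟩ := abs_le_sq_sub hne0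
        rw [← hx] at hbq hbp
        have hsz : |2 * m1 * e| = 2 * |m1 * e| := by
          rw [mul_assoc, abs_mul, abs_two]
        rcases hpar with ⟨hp2, hq2⟩ | ⟨hp2, hq2⟩
        · obtain ⟨p', rfl⟩ : ∃ p', p = 2 * p' := ⟨p / 2, by omega⟩
          have hp'0 : p' ≠ 0 := right_ne_zero_of_mul hp0
          have hS' : Sol q p' := ⟨hpq.of_mul_left_right.symm, r, by linarith⟩
          obtain ⟨g, h, hS'', h1, h2, h3⟩ := descent_step hS' hq2 hp'0
          apply fin g h hS'' h1 h2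
          rw [hsz]
          rw [abs_mul, abs_two] at hbp
          have h5 : 1 ≤ |p'| := Int.one_le_abs hp'0
          linarith
        · obtain ⟨q', rfl⟩ : ∃ q', q = 2 * q' := ⟨q / 2, by omega⟩
          have hq'0 : q' ≠ 0 := right_ne_zero_of_mul hq0
          have hS' : Sol p q' := ⟨hpq.of_mul_right_right, r, by linarith⟩
          obtain ⟨g, h, hS'', h1, h2, h3⟩ := descent_step hS' hp2 hq'0
          apply fin g h hS'' h1 h2
          rw [hsz]
          rw [abs_mul, abs_two] at hbq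
          have h5 : 1 ≤ |q'| := Int.one_le_abs hq'0
          linarith
    · obtain ⟨g, h, hS', h1, h2, h3⟩ := descent_step hS hm2 he0
      apply fin g h hS' h1 h2
      have h4 : 1 ≤ |e| := Int.one_le_abs he0
      have h5 : 1 ≤ |m| := Int.one_le_abs hm0
      rw [abs_mul m e]
      nlinarith


theorem quartic_int {m e n : ℤ} (hc : IsCoprime m e)
    (hn : n ^ 2 = m ^ 4 - 7 * m ^ 2 * e ^ 2 + 16 * e ^ 4) : m * e = 0 ∨ m ^ 2 = 4 * e ^ 2 := by
  by_contra h
  rw [not_or] at h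
  exact no_nontrivial _ m e rfl ⟨hc, n, hn⟩ h.1 h.2

theorem quartic_rat (μ ν : ℚ) (h : ν ^ 2 = μ ^ 4 - 7 * μ ^ 2 + 16) : μ = 0 ∨ μ ^ 2 = 4 := by
  have he0 : ((μ.den : ℤ) : ℚ) ≠ 0 := by exact_mod_cast μ.den_ne_zero
  have hμ : μ = (μ.num : ℚ) / ((μ.den : ℤ) : ℚ) := by
    simpa using (Rat.num_div_den μ).symm
  generalize hm : μ.num = m at *
  have hc : IsCoprime m (μ.den : ℤ) := by
    rw [Int.isCoprime_iff_gcd_eq_one, ← hm]
    exact μ.reduced
  generalize (μ.den : ℤ) = e at *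
  have hsq : IsSquare (((m ^ 4 - 7 * m ^ 2 * e ^ 2 + 16 * e ^ 4 : ℤ)) : ℚ) := by
    refine ⟨ν * (e : ℚ) ^ 2, ?_⟩
    have : ν * (e : ℚ) ^ 2 * (ν * (e : ℚ) ^ 2) = ν ^ 2 * (e : ℚ) ^ 4 := by ring
    rw [this, h, hμ]
    push_cast
    field_simp
  rw [Rat.isSquare_intCast_iff] at hsq
  obtain ⟨n, hn⟩ := hsq
  rcases quartic_int hc (n := n) (by rw [hn]; ring) with h0 | h4
  · left
    have hez : e ≠ 0 := by
      rintro rfl; simp at he0
    have : m = 0 := by
      rcases mul_eq_zero.mp h0 with h | h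
      · exact h
      · exact absurd h hez
    rw [hμ, this]; simp
  · right
    rw [hμ, div_pow, div_eq_iff (pow_ne_zero 2 he0)]
    exact_mod_cast h4

theorem rat_points_t (t w : ℚ) (h : w ^ 2 = -t * (4 * t - 1) * (25 * t - 4)) :
    t = 0 ∨ t = 1 / 4 ∨ t = 4 / 25 ∨ t = 1 / 5 ∨ t = -1 / 5 := by
  by_cases h1 : 1 - 4 * t = 0
  · right; left; linarith
  by_cases h2 : 10 * t - 1 = 0
  · exfalso
    have ht : t = 1 / 10 := by linarith
    rw [ht] at h
    nlinarith [sq_nonneg w]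
  have hQ : (1 - 4 * t) * (10 * t - 1) ^ 2 ≠ 0 := mul_ne_zero h1 (pow_ne_zero 2 h2)
  have hμ2 : (2 * w * (5 * t - 2) / ((1 - 4 * t) * (10 * t - 1))) ^ 2
      = 4 * t * (25 * t - 4) * (5 * t - 2) ^ 2 / ((1 - 4 * t) * (10 * t - 1) ^ 2) := by
    rw [div_pow, div_eq_div_iff (pow_ne_zero 2 (mul_ne_zero h1 h2)) hQ]
    linear_combination (4 * (5 * t - 2) ^ 2 * (1 - 4 * t) * (10 * t - 1) ^ 2) * h
  have hq : (((10 * t - 1) ^ 4 + 15 * (1 - 4 * t) ^ 2) / (4 * (10 * t - 1) ^ 2 * (1 - 4 * t))) ^ 2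
      = (2 * w * (5 * t - 2) / ((1 - 4 * t) * (10 * t - 1))) ^ 4
        - 7 * (2 * w * (5 * t - 2) / ((1 - 4 * t) * (10 * t - 1))) ^ 2 + 16 := by
    have h4 : (2 * w * (5 * t - 2) / ((1 - 4 * t) * (10 * t - 1))) ^ 4
        = ((2 * w * (5 * t - 2) / ((1 - 4 * t) * (10 * t - 1))) ^ 2) ^ 2 := by ring
    rw [h4, hμ2]
    have hM : 4 * t * (25 * t - 4) * (5 * t - 2) ^ 2 / ((1 - 4 * t) * (10 * t - 1) ^ 2)
        * ((1 - 4 * t) * (10 * t - 1) ^ 2) = 4 * t * (25 * t - 4) * (5 * t - 2) ^ 2 :=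
      div_mul_cancel₀ _ hQ
    generalize 4 * t * (25 * t - 4) * (5 * t - 2) ^ 2 / ((1 - 4 * t) * (10 * t - 1) ^ 2) = M at hM
    have hD : 4 * (10 * t - 1) ^ 2 * (1 - 4 * t) ≠ 0 :=
      mul_ne_zero (mul_ne_zero (by norm_num) (pow_ne_zero 2 h2)) h1
    rw [div_pow, div_eq_iff (pow_ne_zero 2 hD)]
    linear_combination (-16 * (M * ((1 - 4 * t) * (10 * t - 1) ^ 2)
      + 4 * t * (25 * t - 4) * (5 * t - 2) ^ 2) + 112 * ((1 - 4 * t) * (10 * t - 1) ^ 2)) * hM
  rcases quartic_rat _ _ hq with h0 | h4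
  · rw [div_eq_zero_iff] at h0
    rcases h0 with h0 | h0
    · rcases mul_eq_zero.mp h0 with h0 | h0
      · have hw : w = 0 := by
          rcases mul_eq_zero.mp h0 with h0 | h0
          · norm_num at h0
          · exact h0
        rw [hw] at h
        have h3 : t * (4 * t - 1) * (25 * t - 4) = 0 := by linarith
        rcases mul_eq_zero.mp h3 with h3 | h3
        · rcases mul_eq_zero.mp h3 with h3 | h3
          · left; exact h3
          · right; left; linarith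
        · right; right; left; linarith
      · exfalso
        have ht : t = 2 / 5 := by linarith
        rw [ht] at h
        nlinarith [sq_nonneg w]
    · exfalso
      rcases mul_eq_zero.mp h0 with h0 | h0
      · exact h1 h0
      · exact h2 h0
  · rw [hμ2, div_eq_iff hQ] at h4
    have h5 : (5 * t - 1) * (5 * t + 1) * (25 * t ^ 2 - 8 * t + 1) = 0 := by
      linear_combination (1 / 4 : ℚ) * h4
    have h6 : 25 * t ^ 2 - 8 * t + 1 ≠ 0 := by nlinarith [sq_nonneg (5 * t - 4 / 5)]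
    rcases mul_eq_zero.mp h5 with h5 | h5
    · rcases mul_eq_zero.mp h5 with h5 | h5
      · right; right; right; left; linarith
      · right; right; right; right; linarith
    · exact absurd h5 h6

end Fermat.Agent.S51.Quartic
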