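import Mathlib

/-!
# S51: the 2-descent on `y^2 = x (x - 1) (x - 81)`

If `x (x - 1) (x - 81)` is a nonzero rational square then `x` is a square and
`x - 1` is `±1` or `±5` times a square.
-/

set_option autoImplicit false

namespace Fermat.Agent.S51.TwoDescent

lemma odd_sq (r : ℤ) (h : Odd r) : ∃ a : ℤ, r ^ 2 = 8 * a + 1 := by
  obtain ⟨i, rfl⟩ := h
  obtain ⟨k, hk⟩ := Int.even_mul_succ_self i
  exact ⟨k, by linear_combination 4 * hk⟩

lemma sq_mod_four (c : ℤ) : c ^ 2 % 4 = 0 ∨ c ^ 2 % 4 = 1 := by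
  rcases Int.even_or_odd' c with ⟨k, rfl | rfl⟩
  · left; ring_nf; omega
  · right; ring_nf; omega

/-- the 2-adic input -/
lemma sixteen_dvd (r s c : ℤ) (hr : Odd r) (hs : Odd s)
    (h : (r ^ 2 - s ^ 2) * (r ^ 2 - 81 * s ^ 2) = c ^ 2) : (16 : ℤ) ∣ r ^ 2 - s ^ 2 := by
  obtain ⟨a, ha⟩ := odd_sq r hr
  obtain ⟨b, hb⟩ := odd_sq s hs
  rw [ha, hb] at h ⊢
  have h64 : (8 : ℤ) ^ 2 ∣ c ^ 2 := ⟨(a - b) * (a - 81 * b - 10), by rw [← h]; ring⟩
  have h8 : (8 : ℤ) ∣ c := (Int.pow_dvd_pow_iff (by norm_num)).1 h64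
  obtain ⟨c', rfl⟩ := h8
  have h' : (a - b) * (a - 81 * b - 10) = c' ^ 2 := by
    have : (64 : ℤ) * ((a - b) * (a - 81 * b - 10)) = 64 * c' ^ 2 := by linear_combination h
    exact mul_left_cancel₀ (by norm_num) this
  rcases Int.even_or_odd' (a - b) with ⟨k, hk | hk⟩
  · exact ⟨k, by linear_combination 8 * hk⟩
  · exfalso
    have e : c' ^ 2 = 4 * (k ^ 2 - 4 * k - 40 * k * b - 20 * b - 3) + 3 := by
      rw [← h']
      have : a = 2 * k + 1 + b := by linear_combination hk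
      subst this
      ring
    have := sq_mod_four c'
    omega

/-- **Lemma L.** -/
lemma classL (r s c : ℤ) (hrs : IsCoprime r s) (hc : c ≠ 0)
    (h : (r ^ 2 - s ^ 2) * (r ^ 2 - 81 * s ^ 2) = c ^ 2) :
    ∃ t : ℤ, r ^ 2 - s ^ 2 = t ^ 2 ∨ r ^ 2 - s ^ 2 = -t ^ 2 ∨
      5 * (r ^ 2 - s ^ 2) = t ^ 2 ∨ 5 * (r ^ 2 - s ^ 2) = -t ^ 2 := by
  set A := r ^ 2 - s ^ 2 with hA
  set B := r ^ 2 - 81 * s ^ 2 with hB
  have hA0 : A ≠ 0 := by
    rintro h0; rw [h0, zero_mul] at h; exact hc (pow_eq_zero_iff (two_ne_zero) |>.1 h.symm)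
  have hg0 : 0 < Int.gcd A B := Int.gcd_pos_of_ne_zero_left _ hA0
  obtain ⟨u, v, huv, hAu, hBv⟩ := Int.exists_gcd_one hg0
  set g := Int.gcd A B with hg
  have hgA : (g : ℤ) ∣ A := Int.gcd_dvd_left ..
  have hgB : (g : ℤ) ∣ B := Int.gcd_dvd_right ..
  -- g ∣ 80
  have hg80 : (g : ℤ) ∣ 80 := by
    obtain ⟨α, β, hαβ⟩ := (hrs.pow (m := 2) (n := 2))
    have h1 : (g : ℤ) ∣ 80 * s ^ 2 := by
      have : 80 * s ^ 2 = A - B := by rw [hA, hB]; ring
      rw [this]; exact dvd_sub hgA hgB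
    have h2 : (g : ℤ) ∣ 80 * r ^ 2 := by
      have : 80 * r ^ 2 = 81 * A - B := by rw [hA, hB]; ring
      rw [this]; exact dvd_sub (Dvd.dvd.mul_left hgA _) hgB
    have : (80 : ℤ) = α * (80 * r ^ 2) + β * (80 * s ^ 2) := by linear_combination -80 * hαβ
    rw [this]
    exact dvd_add (Dvd.dvd.mul_left h2 _) (Dvd.dvd.mul_left h1 _)
  -- u is ± a square
  have hgc : (g : ℤ) ∣ c := by
    have : (g : ℤ) ^ 2 ∣ c ^ 2 := ⟨u * v, by rw [← h, hAu, hBv]; ring⟩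
    exact (Int.pow_dvd_pow_iff (by norm_num)).1 this
  obtain ⟨c', rfl⟩ := hgc
  have hgz : (g : ℤ) ≠ 0 := by exact_mod_cast hg0.ne'
  have huv2 : u * v = c' ^ 2 := by
    have : (g : ℤ) ^ 2 * (u * v) = (g : ℤ) ^ 2 * c' ^ 2 := by
      have := h
      rw [hAu, hBv] at this
      linear_combination this
    exact mul_left_cancel₀ (pow_ne_zero 2 hgz) this
  obtain ⟨u0, hu0⟩ := Int.sq_of_gcd_eq_one huv huv2
  -- parity
  have hpar : (2 : ℤ) ∣ g → (16 : ℤ) ∣ g := by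
    intro h2
    have h2A : (2 : ℤ) ∣ r ^ 2 - s ^ 2 := h2.trans hgA
    have hodd : Odd r ∧ Odd s := by
      rcases Int.even_or_odd r with hr | hr <;> rcases Int.even_or_odd s with hs | hs
      · exfalso
        have h2r : (2 : ℤ) ∣ r := hr.two_dvd
        have h2s : (2 : ℤ) ∣ s := hs.two_dvd
        have := hrs.isUnit_of_dvd' h2r h2s
        exact absurd this (by decide)
      · exfalso
        have : Odd (r ^ 2 - s ^ 2) := (Even.pow_of_ne_zero hr (by norm_num)).sub_odd hs.pow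
        exact (Int.not_even_iff_odd.2 this) (even_iff_two_dvd.2 h2A)
      · exfalso
        have : Odd (r ^ 2 - s ^ 2) := hr.pow.sub_even (Even.pow_of_ne_zero hs (by norm_num))
        exact (Int.not_even_iff_odd.2 this) (even_iff_two_dvd.2 h2A)
      · exact ⟨hr, hs⟩
    have h16A : (16 : ℤ) ∣ A := sixteen_dvd r s _ hodd.1 hodd.2 h
    have h16B : (16 : ℤ) ∣ B := by
      have : B = A - 16 * (5 * s ^ 2) := by rw [hA, hB]; ring
      rw [this]; exact dvd_sub h16A (Dvd.intro _ rfl)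
    exact Int.dvd_coe_gcd h16A h16B
  have hgN : g ∣ 80 := by exact_mod_cast hg80
  have hmem : g ∈ Nat.divisors 80 := Nat.mem_divisors.2 ⟨hgN, by norm_num⟩
  have hdiv : Nat.divisors 80 = {1, 2, 4, 5, 8, 10, 16, 20, 40, 80} := by decide
  rw [hdiv] at hmem
  simp only [Finset.mem_insert, Finset.mem_singleton] at hmem
  rcases hmem with hgv | hgv | hgv | hgv | hgv | hgv | hgv | hgv | hgv | hgv <;>
    rw [hgv] at hpar hAu <;> norm_num at hpar
  · -- g = 1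
    rcases hu0 with e | e
    · exact ⟨u0, Or.inl (by rw [hAu, e]; ring)⟩
    · exact ⟨u0, Or.inr (Or.inl (by rw [hAu, e]; ring))⟩
  · -- g = 5
    rcases hu0 with e | e
    · exact ⟨5 * u0, Or.inr (Or.inr (Or.inl (by rw [hAu, e]; push_cast; ring)))⟩
    · exact ⟨5 * u0, Or.inr (Or.inr (Or.inr (by rw [hAu, e]; push_cast; ring)))⟩
  · -- g = 16
    rcases hu0 with e | e
    · exact ⟨4 * u0, Or.inl (by rw [hAu, e]; push_cast; ring)⟩
    · exact ⟨4 * u0, Or.inr (Or.inl (by rw [hAu, e]; push_cast; ring))⟩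
  · -- g = 80
    rcases hu0 with e | e
    · exact ⟨20 * u0, Or.inr (Or.inr (Or.inl (by rw [hAu, e]; push_cast; ring)))⟩
    · exact ⟨20 * u0, Or.inr (Or.inr (Or.inr (by rw [hAu, e]; push_cast; ring)))⟩

/-- one step of the 3-adic argument -/
lemma three_step (μ n β P Q : ℤ) (hn : (n : ZMod 3) = 1)
    (h : μ * (3 * P - n) * (μ - 3 * Q) = β ^ 2) : (3 : ℤ) ∣ μ := by
  have key : ∀ a b : ZMod 3, a * (0 * (P : ZMod 3) - 1) * (a - 0 * (Q : ZMod 3)) = b ^ 2 → a = 0 := by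
    simp only [zero_mul, zero_sub, sub_zero]
    decide
  have h3 : ((3 : ℤ) : ZMod 3) = 0 := by decide
  have hc := congrArg (Int.cast : ℤ → ZMod 3) h
  push_cast at hc
  rw [hn] at hc
  have h3' : (3 : ZMod 3) = 0 := by decide
  rw [h3'] at hc
  exact (ZMod.intCast_zmod_eq_zero_iff_dvd μ 3).1 (key _ _ hc)

/-- divide the equation by 9 -/
lemma three_red (μ X Y β : ℤ) (h : (3 * μ) * X * (3 * Y) = β ^ 2) :
    ∃ β' : ℤ, β = 3 * β' ∧ μ * X * Y = β' ^ 2 := by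
  have h9 : (3 : ℤ) ^ 2 ∣ β ^ 2 := ⟨μ * X * Y, by rw [← h]; ring⟩
  obtain ⟨β', rfl⟩ := (Int.pow_dvd_pow_iff (by norm_num)).1 h9
  refine ⟨β', rfl, ?_⟩
  have : (9 : ℤ) * (μ * X * Y) = 9 * β' ^ 2 := by linear_combination h
  exact mul_left_cancel₀ (by norm_num) this

lemma pos_sq_of (m a : ℤ) (hm : 0 < m) (h : m = a ^ 2 ∨ m = -a ^ 2) : m = a ^ 2 := by
  rcases h with h | h
  · exact h
  · exfalso; nlinarith [sq_nonneg a]

/-- cancel a square factor -/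
lemma cancel_sq (r M b : ℤ) (hr : r ≠ 0) (h : r ^ 2 * M = b ^ 2) :
    ∃ b' : ℤ, b = r * b' ∧ M = b' ^ 2 := by
  have h9 : r ^ 2 ∣ b ^ 2 := ⟨M, h.symm⟩
  obtain ⟨b', rfl⟩ := (Int.pow_dvd_pow_iff (by norm_num)).1 h9
  refine ⟨b', rfl, ?_⟩
  have : r ^ 2 * M = r ^ 2 * b' ^ 2 := by linear_combination h
  exact mul_left_cancel₀ (pow_ne_zero 2 hr) this

/-- integer form of the 2-descent: either `m = r^2, n = s^2` with the class of `r^2 - s^2` known,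
or `m = 81 r^2, n = s^2` with the class of `s^2 - r^2` known. -/
theorem int_descent (m n b : ℤ) (hn : 0 < n) (hmn : IsCoprime m n) (hb : b ≠ 0)
    (h : m * n * (m - n) * (m - 81 * n) = b ^ 2) :
    ∃ r s c t : ℤ, r ≠ 0 ∧ s ≠ 0 ∧ c ≠ 0 ∧ n = s ^ 2 ∧
      ((m = r ^ 2 ∧ (r ^ 2 - s ^ 2) * (r ^ 2 - 81 * s ^ 2) = c ^ 2 ∧
        (r ^ 2 - s ^ 2 = t ^ 2 ∨ r ^ 2 - s ^ 2 = -t ^ 2 ∨
          5 * (r ^ 2 - s ^ 2) = t ^ 2 ∨ 5 * (r ^ 2 - s ^ 2) = -t ^ 2)) ∨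
       (m = 81 * r ^ 2 ∧ (s ^ 2 - r ^ 2) * (s ^ 2 - 81 * r ^ 2) = c ^ 2 ∧
        (s ^ 2 - r ^ 2 = t ^ 2 ∨ s ^ 2 - r ^ 2 = -t ^ 2 ∨
          5 * (s ^ 2 - r ^ 2) = t ^ 2 ∨ 5 * (s ^ 2 - r ^ 2) = -t ^ 2))) := by
  -- n is a square
  have hc1 : IsCoprime n (m * (m - n) * (m - 81 * n)) := by
    have h1 : IsCoprime n m := hmn.symm
    have h2 : IsCoprime n (m - n) := by
      have := h1.add_mul_left_right (-1)
      rwa [show m + n * -1 = m - n by ring] at this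
    have h3 : IsCoprime n (m - 81 * n) := by
      have := h1.add_mul_left_right (-81)
      rwa [show m + n * -81 = m - 81 * n by ring] at this
    exact (h1.mul_right h2).mul_right h3
  obtain ⟨s, hs⟩ := Int.sq_of_isCoprime hc1 (c := b) (by rw [← h]; ring)
  have hs := pos_sq_of n s hn hs
  have hs0 : s ≠ 0 := by rintro rfl; simp at hs; omega
  obtain ⟨b₁, rfl, hM⟩ := cancel_sq s (m * (m - n) * (m - 81 * n)) b hs0 (by rw [← h, hs]; ring)
  have hb₁ : b₁ ≠ 0 := by rintro rfl; simp at hb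
  have hb₁pos : 0 < b₁ ^ 2 := by positivity
  -- m > 0
  have hm0 : m ≠ 0 := by
    rintro rfl
    simp at hM
    exact hb₁ (pow_eq_zero_iff (two_ne_zero) |>.1 hM.symm)
  have hmpos : 0 < m := by
    by_contra hneg
    have hlt : m < 0 := lt_of_le_of_ne (not_lt.1 hneg) hm0
    have h1 : 0 < m * (m - n) := mul_pos_of_neg_of_neg hlt (by linarith)
    have h2 : m * (m - n) * (m - 81 * n) < 0 := mul_neg_of_pos_of_neg h1 (by linarith)
    linarith
  by_cases h3 : (3 : ℤ) ∣ m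
  · -- 3 ∣ m : then 81 ∣ m
    have hs3 : ¬ (3 : ℤ) ∣ s := by
      intro h3s
      have h3n : (3 : ℤ) ∣ n := by rw [hs]; exact Dvd.dvd.pow h3s (by norm_num)
      exact absurd (hmn.isUnit_of_dvd' h3 h3n) (by decide)
    have hn3 : (n : ZMod 3) = 1 := by
      have key : ∀ a : ZMod 3, a ≠ 0 → a ^ 2 = 1 := by decide
      rw [hs]; push_cast
      exact key _ (fun h0 => hs3 ((ZMod.intCast_zmod_eq_zero_iff_dvd s 3).1 h0))
    obtain ⟨m₁, rfl⟩ := h3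
    obtain ⟨b₂, rfl, e₂⟩ := three_red m₁ (3 * m₁ - n) (m₁ - 27 * n) b₁ (by rw [← hM]; ring)
    obtain ⟨m₂, rfl⟩ := three_step m₁ n b₂ m₁ (9 * n) hn3 (by rw [← e₂]; ring)
    obtain ⟨b₃, rfl, e₃⟩ := three_red m₂ (9 * m₂ - n) (m₂ - 9 * n) b₂ (by rw [← e₂]; ring)
    obtain ⟨m₃, rfl⟩ := three_step m₂ n b₃ (3 * m₂) (3 * n) hn3 (by rw [← e₃]; ring)
    obtain ⟨b₄, rfl, e₄⟩ := three_red m₃ (27 * m₃ - n) (m₃ - 3 * n) b₃ (by rw [← e₃]; ring)
    obtain ⟨m₄, rfl⟩ := three_step m₃ n b₄ (9 * m₃) n hn3 (by rw [← e₄]; ring)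
    obtain ⟨b₅, rfl, e₅⟩ := three_red m₄ (81 * m₄ - n) (m₄ - n) b₄ (by rw [← e₄]; ring)
    have hm4pos : 0 < m₄ := by linarith
    have hcop : IsCoprime m₄ n := by
      have : IsCoprime (81 * m₄) n := by
        rwa [show 3 * (3 * (3 * (3 * m₄))) = 81 * m₄ by ring] at hmn
      exact this.of_mul_left_right
    have hc2 : IsCoprime m₄ ((81 * m₄ - n) * (m₄ - n)) := by
      have h1 : IsCoprime m₄ (81 * m₄ - n) := by
        have := (hcop.add_mul_left_right (-81)).neg_right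
        rwa [show -(n + m₄ * -81) = 81 * m₄ - n by ring] at this
      have h2 : IsCoprime m₄ (m₄ - n) := by
        have := (hcop.add_mul_left_right (-1)).neg_right
        rwa [show -(n + m₄ * -1) = m₄ - n by ring] at this
      exact h1.mul_right h2
    obtain ⟨r, hr⟩ := Int.sq_of_isCoprime hc2 (c := b₅) (by rw [← e₅]; ring)
    have hr := pos_sq_of m₄ r hm4pos hr
    have hr0 : r ≠ 0 := by rintro rfl; simp at hr; omega
    obtain ⟨c, rfl, hcc⟩ := cancel_sq r ((81 * m₄ - n) * (m₄ - n)) b₅ hr0 (by rw [← e₅, hr]; ring)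
    have hc0 : c ≠ 0 := by rintro rfl; simp at hb₁
    have hcop' : IsCoprime s r := by
      rw [hr, hs] at hcop
      exact ((IsCoprime.pow_iff (by norm_num) (by norm_num)).1 hcop).symm
    have hE : (s ^ 2 - r ^ 2) * (s ^ 2 - 81 * r ^ 2) = c ^ 2 := by
      rw [← hcc, hr, hs]; ring
    obtain ⟨t, ht⟩ := classL s r c hcop' hc0 hE
    exact ⟨r, s, c, t, hr0, hs0, hc0, hs, Or.inr ⟨by rw [hr]; ring, hE, ht⟩⟩
  · have h3' : IsCoprime m 3 := ((Int.prime_three.irreducible.coprime_iff_not_dvd).2 h3).symm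
    have hc2 : IsCoprime m ((m - n) * (m - 81 * n)) := by
      have h1 : IsCoprime m (m - n) := by
        have := (hmn.add_mul_left_right (-1)).neg_right
        rwa [show -(n + m * -1) = m - n by ring] at this
      have h2 : IsCoprime m (m - 81 * n) := by
        have h81 : IsCoprime m (81 * n) := by
          have : IsCoprime m (3 ^ 4) := h3'.pow_right
          exact (by norm_num at this; exact this : IsCoprime m 81).mul_right hmn
        have := (h81.add_mul_left_right (-1)).neg_right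
        rwa [show -(81 * n + m * -1) = m - 81 * n by ring] at this
      exact h1.mul_right h2
    obtain ⟨r, hr⟩ := Int.sq_of_isCoprime hc2 (c := b₁) (by rw [← hM]; ring)
    have hr := pos_sq_of m r hmpos hr
    have hr0 : r ≠ 0 := by rintro rfl; simp at hr; omega
    obtain ⟨c, rfl, hcc⟩ := cancel_sq r ((m - n) * (m - 81 * n)) b₁ hr0 (by rw [← hM, hr]; ring)
    have hc0 : c ≠ 0 := by rintro rfl; simp at hb₁
    have hcop' : IsCoprime r s := by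
      rw [hr, hs] at hmn
      exact (IsCoprime.pow_iff (by norm_num) (by norm_num)).1 hmn
    have hE : (r ^ 2 - s ^ 2) * (r ^ 2 - 81 * s ^ 2) = c ^ 2 := by
      rw [← hcc, hr, hs]
    obtain ⟨t, ht⟩ := classL r s c hcop' hc0 hE
    exact ⟨r, s, c, t, hr0, hs0, hc0, hs, Or.inl ⟨hr, hE, ht⟩⟩

/-- **2-descent** on `y^2 = x (x - 1) (x - 81)`. -/
theorem two_descent (x y : ℚ) (h : y ^ 2 = x * (x - 1) * (x - 81)) (hy : y ≠ 0) :
    IsSquare x ∧ (IsSquare (x - 1) ∨ IsSquare (-(x - 1)) ∨ IsSquare (5 * (x - 1)) ∨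
      IsSquare (-(5 * (x - 1)))) := by
  set m : ℤ := x.num with hm
  set n : ℤ := (x.den : ℤ) with hn
  have hnpos : 0 < n := by rw [hn]; exact_mod_cast x.den_pos
  have hnq : (n : ℚ) ≠ 0 := by exact_mod_cast hnpos.ne'
  have hx : x = (m : ℚ) / (n : ℚ) := by
    rw [hm, hn]; push_cast; exact (Rat.num_div_den x).symm
  have hcop : IsCoprime m n := by
    rw [Int.isCoprime_iff_gcd_eq_one, hm, hn]
    exact x.reduced
  have hZ : ((m * n * (m - n) * (m - 81 * n) : ℤ) : ℚ) = (y * n ^ 2) * (y * n ^ 2) := by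
    have : (y * n ^ 2) * (y * n ^ 2) = y ^ 2 * (n : ℚ) ^ 4 := by ring
    rw [this, h, hx]
    push_cast
    field_simp
  obtain ⟨b, hb⟩ := Rat.isSquare_intCast_iff.1 ⟨_, hZ⟩
  have hb0 : b ≠ 0 := by
    rintro rfl
    rw [hb] at hZ
    simp at hZ
    exact hZ.elim hy hnpos.ne'
  obtain ⟨r, s, c, t, hr0, hs0, hc0, hns, hcase⟩ :=
    int_descent m n b hnpos hcop hb0 (by rw [hb]; ring)
  have hsq : (s : ℚ) ≠ 0 := by exact_mod_cast hs0
  have hcq : (c : ℚ) ≠ 0 := by exact_mod_cast hc0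
  have hnsq : (n : ℚ) = (s : ℚ) ^ 2 := by exact_mod_cast hns
  rcases hcase with ⟨hmr, -, ht⟩ | ⟨hmr, hE, ht⟩
  · have hmrq : (m : ℚ) = (r : ℚ) ^ 2 := by exact_mod_cast hmr
    refine ⟨⟨(r : ℚ) / s, by rw [hx, hmrq, hnsq]; field_simp⟩, ?_⟩
    have hx1 : x - 1 = ((r : ℚ) ^ 2 - (s : ℚ) ^ 2) / (s : ℚ) ^ 2 := by
      rw [hx, hmrq, hnsq]; field_simp
    rcases ht with ht | ht | ht | ht
    · have htq : (r : ℚ) ^ 2 - (s : ℚ) ^ 2 = (t : ℚ) ^ 2 := by exact_mod_cast ht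
      exact Or.inl ⟨(t : ℚ) / s, by rw [hx1, htq]; field_simp⟩
    · have htq : (r : ℚ) ^ 2 - (s : ℚ) ^ 2 = -(t : ℚ) ^ 2 := by exact_mod_cast ht
      exact Or.inr (Or.inl ⟨(t : ℚ) / s, by rw [hx1, htq]; field_simp⟩)
    · have htq : 5 * ((r : ℚ) ^ 2 - (s : ℚ) ^ 2) = (t : ℚ) ^ 2 := by exact_mod_cast ht
      refine Or.inr (Or.inr (Or.inl ⟨(t : ℚ) / s, ?_⟩))
      rw [hx1, ← mul_div_assoc, htq]; field_simp
    · have htq : 5 * ((r : ℚ) ^ 2 - (s : ℚ) ^ 2) = -(t : ℚ) ^ 2 := by exact_mod_cast ht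
      refine Or.inr (Or.inr (Or.inr ⟨(t : ℚ) / s, ?_⟩))
      rw [hx1, ← mul_div_assoc, htq]; field_simp
  · have hmrq : (m : ℚ) = 81 * (r : ℚ) ^ 2 := by exact_mod_cast hmr
    refine ⟨⟨9 * (r : ℚ) / s, by rw [hx, hmrq, hnsq]; field_simp; ring⟩, ?_⟩
    have hEq : ((s : ℚ) ^ 2 - (r : ℚ) ^ 2) * ((s : ℚ) ^ 2 - 81 * (r : ℚ) ^ 2) = (c : ℚ) ^ 2 := by
      exact_mod_cast hE
    have hx1 : x - 1 = -((s : ℚ) ^ 2 - 81 * (r : ℚ) ^ 2) / (s : ℚ) ^ 2 := by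
      rw [hx, hmrq, hnsq]; field_simp; ring
    have ht0 : (t : ℚ) ≠ 0 := by
      intro h0
      have h0' : t = 0 := by exact_mod_cast h0
      subst h0'
      have hA : s ^ 2 - r ^ 2 = 0 := by
        rcases ht with ht | ht | ht | ht <;> simp at ht <;> linarith
      rw [hA, zero_mul] at hE
      exact hc0 (pow_eq_zero_iff (two_ne_zero) |>.1 hE.symm)
    generalize (s : ℚ) ^ 2 - 81 * (r : ℚ) ^ 2 = B at hEq hx1
    rcases ht with ht | ht | ht | ht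
    · have htq : (s : ℚ) ^ 2 - (r : ℚ) ^ 2 = (t : ℚ) ^ 2 := by exact_mod_cast ht
      rw [htq] at hEq
      have hB : B = (c : ℚ) ^ 2 / (t : ℚ) ^ 2 := by field_simp; linarith
      exact Or.inr (Or.inl ⟨(c : ℚ) / (t * s), by rw [hx1, hB]; field_simp⟩)
    · have htq : (s : ℚ) ^ 2 - (r : ℚ) ^ 2 = -(t : ℚ) ^ 2 := by exact_mod_cast ht
      rw [htq] at hEq
      have hB : B = -(c : ℚ) ^ 2 / (t : ℚ) ^ 2 := by field_simp; linarith
      exact Or.inl ⟨(c : ℚ) / (t * s), by rw [hx1, hB]; field_simp⟩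
    · have htq : 5 * ((s : ℚ) ^ 2 - (r : ℚ) ^ 2) = (t : ℚ) ^ 2 := by exact_mod_cast ht
      have hB : B = 5 * (c : ℚ) ^ 2 / (t : ℚ) ^ 2 := by
        field_simp; rw [← htq]; linarith
      exact Or.inr (Or.inr (Or.inr ⟨5 * (c : ℚ) / (t * s), by rw [hx1, hB]; field_simp⟩))
    · have htq : 5 * ((s : ℚ) ^ 2 - (r : ℚ) ^ 2) = -(t : ℚ) ^ 2 := by exact_mod_cast ht
      have hB : B = -(5 * (c : ℚ) ^ 2) / (t : ℚ) ^ 2 := by
        field_simp
        have : (t : ℚ) ^ 2 = -(5 * ((s : ℚ) ^ 2 - (r : ℚ) ^ 2)) := by linarith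
        rw [this]; linarith
      exact Or.inr (Or.inr (Or.inl ⟨5 * (c : ℚ) / (t * s), by rw [hx1, hB]; field_simp⟩))

end Fermat.Agent.S51.TwoDescent
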